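import Fermat.Agent.TorsCmp.Hecke
import Fermat.Agent.ModDeg.Psi
import Fermat.Agent.Frob.QbarInst
import Fermat.Prelude.Def_ModularCurve_HeckeModule

/-!
# The comparison `J₀(N)[n] → Hom(Γ₀(N), ℤ/n)` and Hecke operators: final form
-/

set_option autoImplicit false
set_option linter.unusedSectionVars false
set_option linter.style.haveILetI false

noncomputable section

open UpperHalfPlane Function ModularCurve Filter ModularForm AlgebraicCurve WithZero
  CongruenceSubgroup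
open scoped Manifold MatrixGroups Topology ModularForm

namespace Fermat.Agent.TorsCmp

open Fermat.Agent.X0Places Fermat.Agent.FunField Fermat.Agent.FunField.PlaceLemmas
open Matrix.SpecialLinearGroup (mapGL)
open Fermat.Agent.HeckeHom (HData heckeHom dataT hom_dataT)
open Fermat.Agent.HeckeRed

/-- Two families of representatives of the same cosets give the same operator. -/
theorem hdata_hom_eq {Γ Γ' : Subgroup SL(2, ℤ)} (D D' : HData Γ Γ')
    (h : ∀ x : D.X, ∃ (y : D'.X) (t : Γ), D.α x = mapGL ℝ (t : SL(2, ℤ)) * D'.α y)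
    (hcard : Fintype.card D.X = Fintype.card D'.X) (A : Type*) [AddCommGroup A] :
    D.hom A = D'.hom A := by
  choose e t ht using h
  have hinj : Injective e := by
    intro x x' hxx
    apply D.uniq (t x * (t x')⁻¹)
    rw [Subgroup.coe_mul, map_mul, Subgroup.coe_inv, map_inv, ht x, ht x', hxx]
    group
  have hbij : Bijective e := (Fintype.bijective_iff_injective_and_card e).2 ⟨hinj, hcard⟩
  refine AddMonoidHom.ext fun φ => AddMonoidHom.ext fun γ' => ?_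
  obtain ⟨γ, rfl⟩ := Additive.ofMul.surjective γ'
  rw [HData.hom_apply, HData.hom_apply]
  have key : ∀ x, e (D.actFun γ x) = D'.actFun γ (e x) ∧
      D.coc γ x = t x * D'.coc γ (e x) * (t (D.actFun γ x))⁻¹ := by
    intro x
    obtain ⟨x', hx'⟩ := hbij.2 (D'.actFun γ (e x))
    have h1 : D.α x * mapGL ℝ (γ : SL(2, ℤ)) =
        mapGL ℝ ((t x * D'.coc γ (e x) * (t x')⁻¹ : Γ) : SL(2, ℤ)) * D.α x' := by
      rw [ht x, ht x', hx', mul_assoc, D'.spec γ (e x)]
      simp only [Subgroup.coe_mul, Subgroup.coe_inv, map_mul, map_inv]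
      group
    obtain ⟨h2, h3⟩ := D.eq_of_spec h1
    subst h2
    exact ⟨hx', h3.symm⟩
  have h1 : ∀ x : D.X, φ (Additive.ofMul (D.coc γ x)) =
      φ (Additive.ofMul (D'.coc γ (e x))) +
        (φ (Additive.ofMul (t x)) - φ (Additive.ofMul (t (D.actFun γ x)))) := by
    intro x
    rw [(key x).2, ofMul_mul, ofMul_mul, ofMul_inv, map_add, map_add, map_neg]
    abel
  rw [Finset.sum_congr rfl fun x _ => h1 x, Finset.sum_add_distrib, Finset.sum_sub_distrib]
  have h2 : ∑ x : D.X, φ (Additive.ofMul (t (D.actFun γ x))) = ∑ x, φ (Additive.ofMul (t x)) :=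
    Equiv.sum_comp (D.perm γ) (fun x => φ (Additive.ofMul (t x)))
  rw [h2, sub_self, add_zero]
  exact Function.Bijective.sum_comp hbij (fun y => φ (Additive.ofMul (D'.coc γ y)))

theorem card_onePoint (ℓ : ℕ) [Fact ℓ.Prime] : Fintype.card (OnePoint (ZMod ℓ)) = ℓ + 1 := by
  have := Fintype.card_option (α := ZMod ℓ)
  rw [ZMod.card] at this
  exact this

/-- For primes `ℓ ∤ N` the double coset operator is the usual Hecke operator. -/
theorem heckeData_hom (N ℓ : ℕ) [NeZero N] [NeZero ℓ] (hl : ℓ.Prime) (hlN : ¬ ℓ ∣ N)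
    (A : Type*) [AddCommGroup A] : (heckeData N ℓ).hom A = heckeHom hl hlN A := by
  have : Fact ℓ.Prime := ⟨hl⟩
  rw [← hom_dataT hl hlN]
  refine hdata_hom_eq (heckeData N ℓ) (dataT hl hlN) (fun c => ?_) ?_ A
  · obtain ⟨δ, hδ⟩ := HeckeHom.exists_cocyc hlN (rep (Gamma0 (N * ℓ)) c) OnePoint.infty
    exact ⟨(P2MW.S_ModularForm_heckeT_slash_eq_self_of_mem_Gamma0.ModularForm.HeckeSlashInvariance.redMatrix ℓ
      ((rep (Gamma0 (N * ℓ)) c : Gamma0 N) : SL(2, ℤ)) • OnePoint.infty : OnePoint (ZMod ℓ)), δ, hδ⟩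
  · have h1 := card_cos_mul N ℓ
    have h2 : Nat.card (XN (N * ℓ)) = dedekindPsi (N * ℓ) := Gamma0Comb.card_X (N * ℓ)
    have h3 : Nat.card (XN N) = dedekindPsi N := Gamma0Comb.card_X N
    rw [h2, h3, ModDeg.psi_mul_prime_of_not_dvd hl hlN] at h1
    have h4 := Nat.eq_of_mul_eq_mul_right (ModDeg.psi_pos (NeZero.ne N)) h1
    have h5 : Fintype.card (heckeData N ℓ).X = Nat.card (Cos N ℓ) :=
      Nat.card_eq_fintype_card.symm
    rw [h5, h4]
    exact (card_onePoint ℓ).symm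

variable {L : Type*} [Field L] [Algebra ℚ L] [IsAlgClosed L] {ι : L →+* ℂ}

variable {N : ℕ} [NeZero N]

/-- **Hecke equivariance**, for characters of classes. -/
theorem IsCharP.hecke (ℓ : ℕ) [NeZero ℓ] {n : ℕ} {z : Pic0 L (FF L N)} {χ : Gamma0 N →* ℂˣ}
    (h : IsCharP ι N n z χ) {χ' : Gamma0 N →* ℂˣ}
    (hχ' : MonoidHom.toAdditive χ' =
      (heckeData N ℓ).hom (Additive ℂˣ) (MonoidHom.toAdditive χ)) :
    IsCharP ι N n (heckeOperatorAlong L N ℓ z) χ' := by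
  obtain ⟨D, rfl, hχ⟩ := h
  rw [heckeOperatorAlong_mk]
  exact ⟨_, rfl, hχ.hecke N ℓ hχ'⟩

/-- **Hecke equivariance** of the comparison. -/
theorem IsCmp.hecke (ℓ : ℕ) [NeZero ℓ] {n : ℕ} {z : Pic0 L (FF L N)}
    {φ : Additive (Gamma0 N) →+ ZMod n} (h : IsCmp ι N n z φ) :
    IsCmp ι N n (heckeOperatorAlong L N ℓ z) ((heckeData N ℓ).hom (ZMod n) φ) := by
  obtain ⟨χ, hχ, hφ⟩ := h
  obtain ⟨χ', hχ'⟩ : ∃ χ' : Gamma0 N →* ℂˣ, MonoidHom.toAdditive χ' =
      (heckeData N ℓ).hom (Additive ℂˣ) (MonoidHom.toAdditive χ) :=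
    ⟨MonoidHom.toAdditive.symm _, Equiv.apply_symm_apply _ _⟩
  refine ⟨χ', hχ.hecke ℓ hχ', ?_⟩
  rw [hχ', ← hφ, HData.hom_comp]

theorem cmpMap_hecke (ℓ : ℕ) [NeZero ℓ] (n : ℕ) [NeZero n]
    (z z' : (Submodule.torsionBy ℤ (Pic0 L (FF L N)) (n : ℤ)).toAddSubgroup)
    (hz : (z' : Pic0 L (FF L N)) = heckeOperatorAlong L N ℓ z) :
    cmpMap ι N n z' = (heckeData N ℓ).hom (ZMod n) (cmpMap ι N n z) := by
  refine (isCmp_cmpMap n z').unique ?_
  rw [hz]
  exact (isCmp_cmpMap n z).hecke ℓ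

/-- The comparison intertwines `T_ℓ` and `heckeHom`. -/
theorem comparison_heckeAlong (p : ℕ) [Fact p.Prime] (ℓ : ℕ) [NeZero ℓ] (hl : ℓ.Prime)
    (hlN : ¬ ℓ ∣ N) (n : ℕ) (x y : Fermat.Agent.Tate.tor p (Pic0 L (FF L N)) n)
    (hy : (y : Pic0 L (FF L N)) = heckeOperatorAlong L N ℓ x) :
    (comparison ι N p).e n y = heckeHom hl hlN (ZMod (p ^ n)) ((comparison ι N p).e n x) := by
  have : NeZero (p ^ n) := ⟨pow_ne_zero n (Fact.out : p.Prime).ne_zero⟩
  rw [← heckeData_hom N ℓ hl hlN]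
  exact cmpMap_hecke ℓ (p ^ n) x y hy

theorem comparison_parabolic (p : ℕ) [Fact p.Prime] (n : ℕ)
    (x : Fermat.Agent.Tate.tor p (Pic0 L (FF L N)) n) :
    Period.IsParabolicHom (Gamma0 N) ((comparison ι N p).e n x) := by
  have : NeZero (p ^ n) := ⟨pow_ne_zero n (Fact.out : p.Prime).ne_zero⟩
  exact (isCmp_cmpMap (p ^ n) x).parabolic

/-! ### over `Q̄` -/

/-- an embedding of `Q̄` in `ℂ` -/
def iotaQbar : AlgebraicClosure ℚ →+* ℂ :=
  (IsAlgClosed.lift : AlgebraicClosure ℚ →ₐ[ℚ] ℂ).toRingHom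

variable (N)

/-- The comparison maps for `J₀(N)`. -/
def comparisonJ (p : ℕ) [Fact p.Prime] :
    Fermat.Agent.Tate.Comparison p (JZero N) (Gamma0 N) := comparison iotaQbar N p

theorem comparisonJ_hecke (p : ℕ) [Fact p.Prime] {ℓ : ℕ} (hl : ℓ.Prime) (hlN : ¬ ℓ ∣ N) (n : ℕ)
    (x y : Fermat.Agent.Tate.tor p (JZero N) n)
    (hy : (y : JZero N) = heckeOperatorBar N ⟨ℓ, hl⟩ (x : JZero N)) :
    (comparisonJ N p).e n y = heckeHom hl hlN (ZMod (p ^ n)) ((comparisonJ N p).e n x) := by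
  haveI : NeZero ℓ := ⟨hl.ne_zero⟩
  exact comparison_heckeAlong (ι := iotaQbar) p ℓ hl hlN n x y hy

theorem comparisonJ_parabolic (p : ℕ) [Fact p.Prime] (n : ℕ)
    (x : Fermat.Agent.Tate.tor p (JZero N) n) :
    Period.IsParabolicHom (Gamma0 N) ((comparisonJ N p).e n x) :=
  comparison_parabolic p n x

end Fermat.Agent.TorsCmp
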