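import Fermat.Agent.X0Places.Embed
import Mathlib.RingTheory.AdicCompletion.Completeness
import Mathlib.RingTheory.Henselian
import Mathlib.RingTheory.RootsOfUnity.AlgebraicallyClosed
import Mathlib.LinearAlgebra.Basis.VectorSpace

/-!
# Descent of the constant field
-/

set_option autoImplicit false
set_option linter.unusedSectionVars false

noncomputable section

open Function ModularCurve HahnSeries

namespace Fermat.Agent.TorsCmp

open Fermat.Agent.X0Places

section Roots

variable {L : Type*} [Field L] [IsAlgClosed L]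

/-- `1 + u` has an `n`-th root for `u` in the ideal generated by `X` -/
theorem exists_root_powerSeries {n : ℕ} (hn : (n : L) ≠ 0) {P : PowerSeries L}
    (hP : P.constantCoeff = 1) : ∃ Q : PowerSeries L, Q ^ n = P := by
  have hn0 : n ≠ 0 := by rintro rfl; exact hn Nat.cast_zero
  have hP' : P - 1 ∈ (Ideal.span {PowerSeries.X} : Ideal (PowerSeries L)) := by
    rw [Ideal.mem_span_singleton, PowerSeries.X_dvd_iff, map_sub, hP, map_one, sub_self]
  obtain ⟨Q, hQ, -⟩ := HenselianRing.is_henselian (I := Ideal.span {(PowerSeries.X : PowerSeries L)})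
    (Polynomial.X ^ n - Polynomial.C P)
    (Polynomial.monic_X_pow_sub_C P hn0) 1 (by
      rw [Polynomial.eval_sub, Polynomial.eval_pow, Polynomial.eval_X, Polynomial.eval_C, one_pow,
        ← neg_sub]
      exact neg_mem hP') (by
      rw [Polynomial.derivative_sub, Polynomial.derivative_C, sub_zero,
        Polynomial.derivative_X_pow, Polynomial.eval_mul, Polynomial.eval_C, Polynomial.eval_pow,
        Polynomial.eval_X, one_pow, mul_one]
      apply IsUnit.map
      rw [PowerSeries.isUnit_iff_constantCoeff, map_natCast]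
      exact isUnit_iff_ne_zero.2 hn)
  refine ⟨Q, ?_⟩
  rw [Polynomial.IsRoot, Polynomial.eval_sub, Polynomial.eval_pow, Polynomial.eval_X,
    Polynomial.eval_C, sub_eq_zero] at hQ
  exact hQ

/-- Laurent series of order divisible by `n` have `n`-th roots. -/
theorem exists_root_laurent {n : ℕ} (hn : (n : L) ≠ 0) {z : LaurentSeries L} (hz : z ≠ 0)
    (hd : (n : ℤ) ∣ z.order) : ∃ w, w ^ n = z := by
  have hn0 : n ≠ 0 := by rintro rfl; exact hn Nat.cast_zero
  obtain ⟨m, hm⟩ := hd
  set c := z.coeff z.order with hc
  have hc0 : c ≠ 0 := HahnSeries.coeff_order_eq_zero.not.2 hz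
  obtain ⟨d, hd⟩ := IsAlgClosed.exists_pow_nat_eq c (Nat.pos_of_ne_zero hn0)
  obtain ⟨Q, hQ⟩ := exists_root_powerSeries hn (P := PowerSeries.C c⁻¹ * z.powerSeriesPart) (by
    rw [map_mul, PowerSeries.constantCoeff_C, ← PowerSeries.coeff_zero_eq_constantCoeff_apply,
      LaurentSeries.powerSeriesPart_coeff, Nat.cast_zero, add_zero, ← hc, inv_mul_cancel₀ hc0])
  refine ⟨HahnSeries.single m d * HahnSeries.ofPowerSeries ℤ L Q, ?_⟩
  have h1 : (HahnSeries.single m d : LaurentSeries L) ^ n = HahnSeries.single z.order c := by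
    rw [HahnSeries.single_pow, hd, hm, nsmul_eq_mul]
  have h2 := LaurentSeries.single_order_mul_powerSeriesPart z
  rw [mul_pow, h1, ← map_pow, hQ, map_mul, HahnSeries.ofPowerSeries_C]
  conv_rhs => rw [← h2]
  rw [← mul_assoc]
  congr 1
  rw [HahnSeries.C_apply, HahnSeries.single_mul_single, add_zero, mul_inv_cancel₀ hc0]

/-- An `n`-th root over a larger field of a Laurent series over an algebraically closed field is
defined over the smaller field. -/
theorem exists_coeffMap_eq_of_pow {M : Type*} [Field M] (ι : L →+* M) {n : ℕ}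
    (hn : (n : L) ≠ 0) {z : LaurentSeries L} (hz : z ≠ 0) {y : LaurentSeries M}
    (hy : y ^ n = coeffMap ι z) : ∃ w : LaurentSeries L, w ^ n = z ∧ coeffMap ι w = y := by
  have hn0 : n ≠ 0 := by rintro rfl; exact hn Nat.cast_zero
  have hinj : Injective (coeffMap ι) := Fermat.Agent.ModPoly.coeffMap_injective ι.injective
  have hz' : coeffMap ι z ≠ 0 := by rwa [map_ne_zero_iff _ hinj]
  have hy0 : y ≠ 0 := by
    rintro rfl
    rw [zero_pow hn0] at hy
    exact hz' hy.symm
  have hordz : (coeffMap ι z).order = z.order := by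
    apply le_antisymm
    · apply HahnSeries.order_le_of_coeff_ne_zero
      rw [coeffMap_coeff, map_ne_zero]
      exact HahnSeries.coeff_order_eq_zero.not.2 hz
    · apply HahnSeries.order_le_of_coeff_ne_zero
      intro h0
      have := HahnSeries.coeff_order_eq_zero.not.2 hz'
      rw [coeffMap_coeff, h0, map_zero] at this
      exact this rfl
  have hd : (n : ℤ) ∣ z.order := by
    rw [← hordz, ← hy, HahnSeries.order_pow, nsmul_eq_mul]
    exact dvd_mul_right _ _
  obtain ⟨w, hw⟩ := exists_root_laurent hn hz hd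
  have hw0 : coeffMap ι w ≠ 0 := by
    rw [map_ne_zero_iff _ hinj]
    rintro rfl
    rw [zero_pow hn0] at hw
    exact hz hw.symm
  have : NeZero (n : L) := ⟨hn⟩
  obtain ⟨ζ, hζ⟩ := HasEnoughRootsOfUnity.exists_primitiveRoot L n
  have hζ' : IsPrimitiveRoot (coeffMap ι (HahnSeries.C ζ)) n :=
    (hζ.map_of_injective (f := (HahnSeries.C : L →+* LaurentSeries L))
      HahnSeries.C_injective).map_of_injective hinj
  have h1 : (y / coeffMap ι w) ^ n = 1 := by
    rw [div_pow, hy, ← map_pow, hw, div_self hz']
  have : NeZero n := ⟨hn0⟩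
  obtain ⟨i, -, hi⟩ := hζ'.eq_pow_of_pow_eq_one h1
  refine ⟨HahnSeries.C ζ ^ i * w, ?_, ?_⟩
  · rw [mul_pow, ← pow_mul, mul_comm i n, pow_mul, ← map_pow, hζ.pow_eq_one, map_one, one_pow,
      one_mul, hw]
  · rw [map_mul, map_pow, hi, div_mul_cancel₀ _ hw0]

end Roots

section Functional

variable {L M : Type*} [Field L] [Field M] [Algebra L M]

/-- coefficientwise application of a linear functional -/
def lamMap (φ : M →ₗ[L] L) (z : LaurentSeries M) : LaurentSeries L where
  coeff k := φ (z.coeff k)
  isPWO_support' := z.isPWO_support.mono (by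
    intro k hk
    simp only [Function.mem_support, HahnSeries.mem_support] at hk ⊢
    exact fun h => hk (by rw [h, map_zero]))

theorem lamMap_coeff (φ : M →ₗ[L] L) (z : LaurentSeries M) (k : ℤ) :
    (lamMap φ z).coeff k = φ (z.coeff k) := rfl

theorem lamMap_add (φ : M →ₗ[L] L) (y z : LaurentSeries M) :
    lamMap φ (y + z) = lamMap φ y + lamMap φ z := by
  ext k
  simp [lamMap_coeff]

theorem lamMap_zero (φ : M →ₗ[L] L) : lamMap φ (0 : LaurentSeries M) = 0 := by
  ext k
  simp [lamMap_coeff]

theorem lamMap_mul (φ : M →ₗ[L] L) (a : LaurentSeries L) (z : LaurentSeries M) :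
    lamMap φ (coeffMap (algebraMap L M) a * z) = a * lamMap φ z := by
  ext k
  have h1 : (coeffMap (algebraMap L M) a).support ⊆ a.support := by
    intro i hi
    simp only [HahnSeries.mem_support, coeffMap_coeff] at hi ⊢
    exact fun h => hi (by rw [h, map_zero])
  have h2 : (lamMap φ z).support ⊆ z.support := by
    intro i hi
    simp only [HahnSeries.mem_support, lamMap_coeff] at hi ⊢
    exact fun h => hi (by rw [h, map_zero])
  rw [lamMap_coeff, HahnSeries.coeff_mul_left' a.isPWO_support h1,
    HahnSeries.coeff_mul_right' z.isPWO_support h2, map_sum]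
  refine Finset.sum_congr rfl fun ij _ => ?_
  rw [coeffMap_coeff, lamMap_coeff, ← Algebra.smul_def, map_smul, smul_eq_mul]

end Functional

section Desc

variable {L M : Type*} [Field L] [Field M] [Algebra ℚ L] [Algebra ℚ M]

theorem coeffMap_coeffEmb' (ι : L →+* M) (x : LaurentSeries ℚ) :
    coeffMap ι (coeffEmb L x) = coeffEmb M x := by
  rw [coeffEmb, coeffEmb, coeffMap_coeffMap]
  exact coeffMap_congr (Subsingleton.elim _ _) x

/-- Descent: a Laurent series over `L` in the base change to `M` is in the base change to `L`. -/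
theorem mem_laurentBaseChange_of_coeffMap (ι : L →+* M)
    (F₀ : IntermediateField ℚ (LaurentSeries ℚ)) {w : LaurentSeries L}
    (hw : coeffMap ι w ∈ laurentBaseChange M F₀) : w ∈ laurentBaseChange L F₀ := by
  let _ : Algebra L M := ι.toAlgebra
  have halg : algebraMap L M = ι := rfl
  obtain ⟨φ, hφ⟩ := (Algebra.linearMap L M).exists_leftInverse_of_injective
    (LinearMap.ker_eq_bot.2 (algebraMap L M).injective)
  have hφ1 : φ 1 = 1 := by
    have := LinearMap.congr_fun hφ 1
    simpa using this
  -- values on the span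
  have key : ∀ v ∈ Algebra.adjoin M (coeffEmb M '' (F₀ : Set (LaurentSeries ℚ))),
      ∀ c : M, lamMap φ (HahnSeries.C c * v) ∈ laurentBaseChange L F₀ := by
    intro v hv
    rw [← Subalgebra.mem_toSubmodule, Algebra.adjoin_eq_span] at hv
    have hcl : (Submonoid.closure (coeffEmb M '' (F₀ : Set (LaurentSeries ℚ))) :
        Set (LaurentSeries M)) = coeffEmb M '' (F₀ : Set (LaurentSeries ℚ)) := by
      apply Set.Subset.antisymm
      · have h1 : Submonoid.closure (coeffEmb M '' (F₀ : Set (LaurentSeries ℚ))) ≤
            (F₀.toSubfield.toSubring.toSubmonoid).map (coeffEmb M).toMonoidHom := by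
          rw [Submonoid.closure_le]
          rintro _ ⟨x, hx, rfl⟩
          exact ⟨x, hx, rfl⟩
        intro x hx
        obtain ⟨y, hy, rfl⟩ := h1 hx
        exact ⟨y, hy, rfl⟩
      · exact Submonoid.subset_closure
    rw [hcl] at hv
    induction hv using Submodule.span_induction with
    | mem x hx =>
      obtain ⟨x, hx, rfl⟩ := hx
      intro c
      have h1 : HahnSeries.C c * coeffEmb M x =
          coeffMap (algebraMap L M) (coeffEmb L x) * HahnSeries.C c := by
        rw [halg, coeffMap_coeffEmb', mul_comm]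
      have h2 : lamMap φ (HahnSeries.C c) = algebraMap L (LaurentSeries L) (φ c) := by
        ext k
        rw [lamMap_coeff, algebraMap_laurentSeries_eq_single, HahnSeries.C_apply,
          HahnSeries.coeff_single, HahnSeries.coeff_single]
        split_ifs
        · rfl
        · rw [map_zero]
      rw [h1, lamMap_mul, h2]
      exact mul_mem (coeffEmb_mem_laurentBaseChange L hx)
        ((laurentBaseChange L F₀).algebraMap_mem _)
    | zero =>
      intro c
      rw [mul_zero, lamMap_zero]
      exact zero_mem _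
    | add x y _ _ hx hy =>
      intro c
      rw [mul_add, lamMap_add]
      exact add_mem (hx c) (hy c)
    | smul a x _ hx =>
      intro c
      rw [Algebra.smul_def, algebraMap_laurentSeries_eq_single, ← HahnSeries.C_apply, ← mul_assoc,
        ← map_mul]
      exact hx _
  rw [laurentBaseChange, IntermediateField.mem_adjoin_iff_div] at hw
  obtain ⟨r, hr, s, hs, hrs⟩ := hw
  rcases eq_or_ne s 0 with rfl | hs0
  · rw [div_zero] at hrs
    have : w = 0 := by
      apply Fermat.Agent.ModPoly.coeffMap_injective ι.injective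
      rw [hrs, map_zero]
    rw [this]
    exact zero_mem _
  set c : M := (s.coeff s.order)⁻¹ with hc
  have hs1 : s.coeff s.order ≠ 0 := HahnSeries.coeff_order_eq_zero.not.2 hs0
  have h1 : w * lamMap φ (HahnSeries.C c * s) = lamMap φ (HahnSeries.C c * r) := by
    rw [← lamMap_mul]
    congr 1
    rw [halg, hrs]
    field_simp
  have h2 : lamMap φ (HahnSeries.C c * s) ≠ 0 := by
    intro h
    have h3 := congrArg (fun z => z.coeff s.order) h
    simp only [lamMap_coeff, HahnSeries.coeff_zero] at h3
    rw [HahnSeries.C_mul_eq_smul, HahnSeries.coeff_smul, smul_eq_mul, hc,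
      inv_mul_cancel₀ hs1, hφ1] at h3
    exact one_ne_zero h3
  rw [eq_div_of_mul_eq h2 h1]
  exact div_mem (key r hr c) (key s hs c)

end Desc

end Fermat.Agent.TorsCmp
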