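import Fermat.Agent.TorsCmp.Final
import Fermat.Agent.S27
import Fermat.Agent.S24
import Fermat.Agent.S20
import Fermat.Agent.S21
import Fermat.Agent.HeckeHom.Theta
import Fermat.Agent.BaseChangeFF.Divisible

/-!
# The comparison `T_p J₀(N) ≅ Hom_par(Γ₀(N), ℤ_p)`: surjectivity
-/

set_option autoImplicit false
set_option linter.unusedSectionVars false
set_option linter.style.haveILetI false

noncomputable section

open UpperHalfPlane Function ModularCurve Filter ModularForm AlgebraicCurve WithZero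
  CongruenceSubgroup
open scoped Manifold MatrixGroups Topology ModularForm

namespace Fermat.Agent.TorsCmp

open Fermat.Agent.X0Places Fermat.Agent.FunField Fermat.Agent.FunField.PlaceLemmas
open Fermat.Agent.HeckeHom
open ModularCurve.Period

section Rank

variable (N : ℕ) [NeZero N] (R : Type*) [CommRing R]

/-- extension of scalars for homomorphisms -/
def castHom (φ : parabolicHoms ℤ (Gamma0 N) ℤ) : parabolicHoms R (Gamma0 N) R :=
  ⟨(Int.castAddHom R).comp (φ : Additive (Gamma0 N) →+ ℤ), fun γ hγ => by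
    rw [AddMonoidHom.comp_apply, φ.2 γ hγ, map_zero]⟩

theorem castHom_apply (φ : parabolicHoms ℤ (Gamma0 N) ℤ) (g : Additive (Gamma0 N)) :
    (castHom N R φ : Additive (Gamma0 N) →+ R) g = (((φ : Additive (Gamma0 N) →+ ℤ) g : ℤ) : R) :=
  rfl

variable [CharZero R] [IsAddTorsionFree R]

theorem linearIndependent_castHom {ι : Type*} [Fintype ι]
    {b : ι → parabolicHoms ℤ (Gamma0 N) ℤ} (hb : LinearIndependent ℤ b) :
    LinearIndependent R fun i => castHom N R (b i) := by
  classical
  rw [Fintype.linearIndependent_iff]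
  intro r hr
  let V : Submodule ℤ R := Submodule.span ℤ (Set.range r)
  have hV1 : Module.Finite ℤ V := Module.Finite.span_of_finite ℤ (Set.finite_range r)
  have hV2 : Module.Free ℤ V := inferInstance
  let s := Module.finBasis ℤ V
  have ha : ∀ i, r i ∈ V := fun i => Submodule.subset_span ⟨i, rfl⟩
  have h1 : ∀ i, r i = ∑ k, s.repr ⟨r i, ha i⟩ k • (s k : R) := by
    intro i
    have h := congrArg Subtype.val (s.sum_repr ⟨r i, ha i⟩)
    rw [AddSubmonoidClass.coe_finsetSum] at h
    exact h.symm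
  have hs : LinearIndependent ℤ fun k => (s k : R) :=
    s.linearIndependent.map' V.subtype (Submodule.ker_subtype V)
  have h2 : ∀ g : Additive (Gamma0 N), ∀ k,
      ∑ i, s.repr ⟨r i, ha i⟩ k * (b i : Additive (Gamma0 N) →+ ℤ) g = 0 := by
    intro g
    have h3 := DFunLike.congr_fun (congrArg Subtype.val hr) g
    rw [AddSubmonoidClass.coe_finsetSum, AddMonoidHom.finsetSum_apply] at h3
    have h4 : ∑ k, (∑ i, s.repr ⟨r i, ha i⟩ k * (b i : Additive (Gamma0 N) →+ ℤ) g) • (s k : R) = 0 := by
      rw [← show _ = (0 : R) from h3]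
      simp_rw [Finset.sum_smul]
      rw [Finset.sum_comm]
      refine Finset.sum_congr rfl fun i _ => ?_
      change _ = r i * ((((b i : Additive (Gamma0 N) →+ ℤ) g : ℤ) : R))
      conv_rhs => rw [h1 i]
      rw [Finset.sum_mul]
      refine Finset.sum_congr rfl fun k _ => ?_
      rw [mul_smul, zsmul_eq_mul, zsmul_eq_mul, zsmul_eq_mul]
      ring
    exact Fintype.linearIndependent_iff.mp hs _ h4
  intro i
  have h5 : ∀ k, s.repr ⟨r i, ha i⟩ k = 0 := by
    intro k
    refine Fintype.linearIndependent_iff.mp hb (fun i => s.repr ⟨r i, ha i⟩ k) ?_ i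
    refine Subtype.ext (AddMonoidHom.ext fun g => ?_)
    rw [AddSubmonoidClass.coe_finsetSum, AddMonoidHom.finsetSum_apply]
    exact h2 g k
  rw [h1 i]
  exact Finset.sum_eq_zero fun k _ => by rw [h5 k, zero_smul]

theorem span_castHom {ι : Type*} {b : ι → parabolicHoms ℤ (Gamma0 N) ℤ}
    (hb : Submodule.span ℤ (Set.range b) = ⊤) :
    Submodule.span R (Set.range fun i => castHom N R (b i)) = ⊤ := by
  rw [eq_top_iff]
  rintro ψ -
  obtain ⟨n, a, φ, h0, h1⟩ := exists_decomp (ψ : Additive (Gamma0 N) →+ R)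
  have hφ : ∀ i, φ i ∈ parabolicHoms ℤ (Gamma0 N) ℤ := fun i γ hγ => h0 _ (ψ.2 γ hγ) i
  have h2 : ψ = ∑ i, a i • castHom N R ⟨φ i, hφ i⟩ := by
    refine Subtype.ext (AddMonoidHom.ext fun g => ?_)
    rw [h1 g, AddSubmonoidClass.coe_finsetSum, AddMonoidHom.finsetSum_apply]
    refine Finset.sum_congr rfl fun i _ => ?_
    change _ = a i * ((φ i g : ℤ) : R)
    rw [zsmul_eq_mul, mul_comm]
  rw [h2]
  refine Submodule.sum_mem _ fun i _ => Submodule.smul_mem _ _ ?_
  have h3 : ∀ φ : parabolicHoms ℤ (Gamma0 N) ℤ, φ ∈ Submodule.span ℤ (Set.range b) →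
      castHom N R φ ∈ Submodule.span R (Set.range fun i => castHom N R (b i)) := by
    intro φ hφ
    induction hφ using Submodule.span_induction with
    | mem x hx =>
      obtain ⟨i, rfl⟩ := hx
      exact Submodule.subset_span ⟨i, rfl⟩
    | zero =>
      have : castHom N R 0 = 0 := Subtype.ext (AddMonoidHom.ext fun g => by
        rw [castHom_apply]; exact Int.cast_zero)
      rw [this]
      exact Submodule.zero_mem _
    | add x y _ _ hx hy =>
      have : castHom N R (x + y) = castHom N R x + castHom N R y :=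
        Subtype.ext (AddMonoidHom.ext fun g => by
          rw [castHom_apply]
          exact Int.cast_add _ _)
      rw [this]
      exact Submodule.add_mem _ hx hy
    | smul c x _ hx =>
      have : castHom N R (c • x) = (c : R) • castHom N R x :=
        Subtype.ext (AddMonoidHom.ext fun g => by
          rw [castHom_apply]
          change (((c • ((x : Additive (Gamma0 N) →+ ℤ) g) : ℤ)) : R) =
            (c : R) * (((x : Additive (Gamma0 N) →+ ℤ) g : ℤ) : R)
          rw [smul_eq_mul, Int.cast_mul])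
      rw [this]
      exact Submodule.smul_mem _ _ hx
  exact h3 _ (by rw [hb]; exact Submodule.mem_top)

/-- a basis of the parabolic homomorphisms defined over `ℤ` -/
def parBasis : Module.Basis (Fin (Module.finrank ℤ (parabolicHoms ℤ (Gamma0 N) ℤ))) R
    (parabolicHoms R (Gamma0 N) R) :=
  Module.Basis.mk (linearIndependent_castHom N R (Module.finBasis ℤ _).linearIndependent)
    (span_castHom N R (Module.finBasis ℤ (parabolicHoms ℤ (Gamma0 N) ℤ)).span_eq).ge

theorem finrank_parabolicHoms [Nontrivial R] : Module.finrank R (parabolicHoms R (Gamma0 N) R) =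
    Module.finrank ℤ (parabolicHoms ℤ (Gamma0 N) ℤ) := by
  rw [Module.finrank_eq_card_basis (parBasis N R), Fintype.card_fin]

theorem finrank_parabolicHoms_complex (hES : ES N) :
    Module.finrank ℂ (parabolicHoms ℂ (Gamma0 N) ℂ) =
      2 * Module.finrank ℂ (CuspForm (Gamma0 N) 2) := by
  rw [← hES.2, LinearMap.finrank_range_of_inj hES.1]
  by_cases h : FiniteDimensional ℂ (CuspForm (Gamma0 N) 2)
  · rw [Module.finrank_prod, two_mul]
  · have h1 : Module.finrank ℂ (CuspForm (Gamma0 N) 2) = 0 :=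
      Module.finrank_of_infinite_dimensional h
    rw [h1, mul_zero]
    refine Module.finrank_of_infinite_dimensional fun h2 => h ?_
    exact Module.Finite.of_surjective (LinearMap.fst ℂ (CuspForm (Gamma0 N) 2) (CuspForm (Gamma0 N) 2))
      LinearMap.fst_surjective

end Rank

section Main

variable {L : Type*} [Field L] [Algebra ℚ L] [IsAlgClosed L] (ι : L →+* ℂ) (N : ℕ) [NeZero N]
variable (p : ℕ) [Fact p.Prime]

include ι in
theorem natCard_tor (n : ℕ) : Nat.card (Fermat.Agent.Tate.tor p (Pic0 L (FF L N)) n) =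
    p ^ (2 * genusFF L (FF L N) * n) := by
  have hchar : CharZero L := algebraRat.charZero L
  haveI : IsCurveOver L (FF L N) := isCurveOver_of_isFF
  rw [← Fermat.Agent.S27.result L (FF L N) p n]
  refine Nat.card_congr (Equiv.subtypeEquivRight fun x => ?_)
  rw [Fermat.Agent.Tate.mem_tor, Pic0.mem_torsion, natCast_zsmul]

include ι in
theorem exists_p_smul (x : Pic0 L (FF L N)) : ∃ y : Pic0 L (FF L N), p • y = x := by
  have hchar : CharZero L := algebraRat.charZero L
  exact Fermat.Agent.BaseChangeFF.pic0_divisible L (FF L N) p (Fact.out : p.Prime).pos x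

include ι in
theorem finrank_padic : Module.finrank ℤ_[p] (parabolicHoms ℤ_[p] (Gamma0 N) ℤ_[p]) =
    2 * genusFF L (FF L N) := by
  have h1 := finrank_parabolicHoms N ℤ_[p]
  have h2 := finrank_parabolicHoms N ℂ
  have h3 := finrank_parabolicHoms_complex N (Fermat.Agent.S21.result N)
  have h4 : (genusFF L (FF L N) : ℚ) = genusFormula N := Fermat.Agent.S24.genusFF_eq L ι N
  have h5 : (Module.finrank ℂ (CuspForm (Gamma0 N) 2) : ℚ) = genusFormula N :=
    Fermat.Agent.S20.result N
  have h6 : Module.finrank ℂ (CuspForm (Gamma0 N) 2) = genusFF L (FF L N) := by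
    exact_mod_cast h5.trans h4.symm
  rw [h1, ← h2, h3, h6]

include ι in
open Fermat.Agent.Tate in
/-- Every torsion point is the component of a compatible system. -/
theorem exists_compatible (n : ℕ) (x : tor p (Pic0 L (FF L N)) n) :
    ∃ y : ∀ m, tor p (Pic0 L (FF L N)) m, (∀ m, mulP p m (y (m + 1)) = y m) ∧ y n = x := by
  have h := exists_p_smul ι N p
  choose s hs using h
  let z : ℕ → Pic0 L (FF L N) := fun m => Nat.rec (x : Pic0 L (FF L N)) (fun _ y => s y) m
  have hz0 : z 0 = x := rfl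
  have hz : ∀ m, p • z (m + 1) = z m := fun m => hs _
  have hz2 : ∀ m, p ^ m • z m = x := by
    intro m
    induction m with
    | zero => rw [pow_zero, one_smul, hz0]
    | succ m ih => rw [pow_succ, mul_smul, hz, ih]
  have hx : p ^ n • (x : Pic0 L (FF L N)) = 0 := (mem_tor p).mp x.2
  have hy : ∀ m, p ^ n • z m ∈ tor p (Pic0 L (FF L N)) m := by
    intro m
    rw [mem_tor, smul_comm, hz2, hx]
  refine ⟨fun m => ⟨p ^ n • z m, hy m⟩, fun m => Subtype.ext ?_, Subtype.ext (hz2 n)⟩
  change p • (p ^ n • z (m + 1)) = p ^ n • z m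
  rw [smul_comm, hz]

open Fermat.Agent.Tate in
/-- **Surjectivity of the comparison.** -/
theorem comparison_mem_iff (φ : Additive (Gamma0 N) →+ ℤ_[p]) :
    φ ∈ parabolicHoms ℤ_[p] (Gamma0 N) ℤ_[p] ↔
      ∀ n, red n φ ∈ Set.range ((comparison ι N p).e n) := by
  have key : ∀ φ : Additive (Gamma0 N) →+ ℤ_[p],
      (∀ n, red n φ ∈ Set.range ((comparison ι N p).e n)) →
        φ ∈ parabolicHoms ℤ_[p] (Gamma0 N) ℤ_[p] := by
    intro φ h γ hγ
    refine PadicInt.ext_of_toZModPow.mp fun n => ?_
    obtain ⟨x, hx⟩ := h n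
    rw [map_zero]
    have h1 := comparison_parabolic (ι := ι) p n x γ hγ
    rw [hx] at h1
    exact h1
  refine ⟨fun hφ n => ?_, key φ⟩
  have hpn : NeZero (p ^ n) := ⟨pow_ne_zero n (Fact.out : p.Prime).ne_zero⟩
  let b := parBasis N ℤ_[p]
  let r := Module.finrank ℤ (parabolicHoms ℤ (Gamma0 N) ℤ)
  let A : Set (Additive (Gamma0 N) →+ ZMod (p ^ n)) :=
    {ψ | ∃ φ ∈ parabolicHoms ℤ_[p] (Gamma0 N) ℤ_[p], red n φ = ψ}
  let F : (Fin r → ZMod (p ^ n)) → (Additive (Gamma0 N) →+ ZMod (p ^ n)) :=
    fun c => ∑ i, (c i).val • red n (b i : Additive (Gamma0 N) →+ ℤ_[p])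
  have hA : A ⊆ Set.range F := by
    rintro _ ⟨φ, hφ, rfl⟩
    refine ⟨fun i => PadicInt.toZModPow n (b.repr ⟨φ, hφ⟩ i), ?_⟩
    have h1 : φ = ∑ i, b.repr ⟨φ, hφ⟩ i • (b i : Additive (Gamma0 N) →+ ℤ_[p]) := by
      have h := congrArg Subtype.val (b.sum_repr ⟨φ, hφ⟩)
      rw [AddSubmonoidClass.coe_finsetSum] at h
      exact h.symm
    change ∑ i, _ = _
    conv_rhs => rw [h1]
    have h2 : ∀ f : Fin r → (Additive (Gamma0 N) →+ ℤ_[p]),
        red n (∑ i, f i) = ∑ i, red n (f i) := fun f =>
      map_sum (⟨⟨red n, red_zero n⟩, red_add n⟩ :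
        (Additive (Gamma0 N) →+ ℤ_[p]) →+ (Additive (Gamma0 N) →+ ZMod (p ^ n))) f Finset.univ
    rw [h2]
    exact Finset.sum_congr rfl fun i _ => (red_smul n _ _).symm
  have hB : Set.range ((comparison ι N p).e n) ⊆ A := by
    rintro _ ⟨x, rfl⟩
    obtain ⟨y, hy, hyn⟩ := exists_compatible ι N p n x
    have hf : ∀ m, (step p m : ZMod (p ^ (m + 1)) →+ ZMod (p ^ m)).comp
        ((comparison ι N p).e (m + 1) (y (m + 1))) = (comparison ι N p).e m (y m) := by
      intro m
      rw [← (comparison ι N p).compat, hy]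
    refine ⟨limHoms (fun m => (comparison ι N p).e m (y m)) hf, key _ fun m => ?_, ?_⟩
    · rw [red_limHoms]
      exact ⟨_, rfl⟩
    · rw [red_limHoms, hyn]
  have hcard : (Set.range F).ncard ≤ (Set.range ((comparison ι N p).e n)).ncard := by
    classical
    rw [Set.ncard_eq_toFinset_card', Set.toFinset_range]
    have h1 : (Set.range ((comparison ι N p).e n)).ncard = p ^ (2 * genusFF L (FF L N) * n) := by
      rw [← natCard_tor ι N p n, ← Set.image_univ, Set.ncard_image_of_injective _
        ((comparison ι N p).injective n), Set.ncard_univ]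
    rw [h1]
    refine Finset.card_image_le.trans ?_
    rw [Finset.card_univ, Fintype.card_fun, ZMod.card, Fintype.card_fin, ← pow_mul]
    have h2 : r = 2 * genusFF L (FF L N) := by
      rw [← finrank_padic ι N p, finrank_parabolicHoms]
    rw [h2, mul_comm]
  have h3 : Set.range ((comparison ι N p).e n) = Set.range F :=
    Set.eq_of_subset_of_ncard_le (hB.trans hA) hcard (Set.finite_range F)
  rw [h3]
  exact hA ⟨φ, hφ, rfl⟩

open Fermat.Agent.Tate in
/-- **Surjectivity of the comparison** for `J₀(N)` over `Q̄`. -/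
theorem comparisonJ_mem_iff (φ : Additive (Gamma0 N) →+ ℤ_[p]) :
    φ ∈ parabolicHoms ℤ_[p] (Gamma0 N) ℤ_[p] ↔
      ∀ n, red n φ ∈ Set.range ((comparisonJ N p).e n) :=
  comparison_mem_iff iotaQbar N p φ

end Main

end Fermat.Agent.TorsCmp
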