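import Fermat.Agent.TorsCmp.Degen

/-!
# The comparison is compatible with Hecke operators
-/

set_option autoImplicit false
set_option linter.unusedSectionVars false
set_option linter.style.haveILetI false

noncomputable section

open UpperHalfPlane Function ModularCurve Filter ModularForm AlgebraicCurve WithZero
  CongruenceSubgroup
open scoped Manifold MatrixGroups Topology ModularForm

namespace Fermat.Agent.TorsCmp

open Fermat.Agent.X0Places Fermat.Agent.FunField Fermat.Agent.FunField.PlaceLemmas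
open Matrix.SpecialLinearGroup (mapGL)
open Fermat.Agent.HeckeHom (HData)
open Fermat.Agent.HeckeRed

theorem mem_Gamma0_iff {N : ℕ} {γ : SL(2, ℤ)} : γ ∈ Gamma0 N ↔ (N : ℤ) ∣ γ 1 0 := by
  rw [Gamma0_mem, ZMod.intCast_zmod_eq_zero_iff_dvd]

variable (N ℓ : ℕ) [NeZero N] [NeZero ℓ]

theorem Gamma0_mul_le : Gamma0 (N * ℓ) ≤ Gamma0 N := by
  intro γ hγ
  rw [mem_Gamma0_iff] at hγ ⊢
  refine dvd_trans ?_ hγ
  push_cast
  exact dvd_mul_right _ _

/-- cosets of `Γ₀(Nℓ)` in `Γ₀(N)` -/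
abbrev Cos : Type := Gamma0 N ⧸ (Gamma0 (N * ℓ)).subgroupOf (Gamma0 N)

theorem card_cos_mul : Nat.card (Cos N ℓ) * Nat.card (XN N) = Nat.card (XN (N * ℓ)) :=
  Subgroup.relIndex_mul_index (Gamma0_mul_le N ℓ)

instance finite_cos : Finite (Cos N ℓ) := by
  have h1 := card_cos_mul N ℓ
  apply Nat.finite_of_card_ne_zero
  intro h
  rw [h, zero_mul] at h1
  have h2 : 0 < Nat.card (XN (N * ℓ)) := Nat.card_pos
  omega

instance fintype_cos : Fintype (Cos N ℓ) := Fintype.ofFinite _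

theorem exists_diag {ε : SL(2, ℤ)} (hε : ε ∈ Gamma0 (N * ℓ)) :
    ∃ δ ∈ Gamma0 N, heckeDiagMatrix ℓ * mapGL ℝ ε = mapGL ℝ δ * heckeDiagMatrix ℓ := by
  have hℓ : ℓ ≠ 0 := NeZero.ne ℓ
  rw [mem_Gamma0_iff] at hε
  obtain ⟨k, hk⟩ := hε
  have hdet := Fermat.Agent.JInv.det_eq ε
  obtain ⟨δ, h00, h01, h10, h11⟩ : ∃ δ : SL(2, ℤ), δ 0 0 = ε 0 0 ∧ δ 0 1 = ℓ * ε 0 1 ∧
      δ 1 0 = N * k ∧ δ 1 1 = ε 1 1 :=
    ⟨mkSL (ε 0 0) (ℓ * ε 0 1) (N * k) (ε 1 1) (by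
      rw [hk] at hdet
      push_cast at hdet
      linear_combination hdet), rfl, rfl, rfl, rfl⟩
  refine ⟨δ, ?_, ?_⟩
  · rw [mem_Gamma0_iff, h10]
    exact dvd_mul_right _ _
  · ext i j
    fin_cases i <;> fin_cases j <;>
      simp [Matrix.mul_apply, Fin.sum_univ_two, val_heckeDiagMatrix hℓ, hk, h00, h01, h10, h11]
    all_goals ring

theorem mem_of_diag {δ ε : SL(2, ℤ)} (hδ : δ ∈ Gamma0 N)
    (h : heckeDiagMatrix ℓ * mapGL ℝ ε = mapGL ℝ δ * heckeDiagMatrix ℓ) :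
    ε ∈ Gamma0 (N * ℓ) := by
  have hℓ : ℓ ≠ 0 := NeZero.ne ℓ
  rw [mem_Gamma0_iff] at hδ ⊢
  have h1 := congrArg (fun M : GL (Fin 2) ℝ => M.val 1 0) h
  simp [Matrix.mul_apply, Fin.sum_univ_two, val_heckeDiagMatrix hℓ] at h1
  have h2 : ε 1 0 = δ 1 0 * ℓ := by exact_mod_cast h1
  obtain ⟨k, hk⟩ := hδ
  refine ⟨k, ?_⟩
  rw [h2, hk]
  push_cast
  ring

/-- The Hecke operator `T_ℓ` on homomorphisms, as the double coset operator of
`diag(ℓ, 1)`. -/
def heckeData : HData (Gamma0 N) (Gamma0 N) :=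
  doubleData (Gamma0 (N * ℓ)) (heckeDiagMatrix ℓ) (fun _ hε => exists_diag N ℓ hε)
    (fun _ hδ _ _ h => mem_of_diag N ℓ hδ h)

/-- The pullback along `τ ↦ τ`. -/
def alphaPull : HData (Gamma0 N) (Gamma0 (N * ℓ)) where
  X := Unit
  α _ := 1
  ex γ _ := ⟨(), ⟨γ, Gamma0_mul_le N ℓ γ.2⟩, by rw [one_mul, mul_one]⟩
  uniq _ _ _ _ := rfl

/-- The pullback along `τ ↦ ℓτ`. -/
def betaPull : HData (Gamma0 N) (Gamma0 (N * ℓ)) where
  X := Unit
  α _ := heckeDiagMatrix ℓ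
  ex γ _ := by
    obtain ⟨δ, hδ, h⟩ := exists_diag N ℓ γ.2
    exact ⟨(), ⟨δ, hδ⟩, h⟩
  uniq _ _ _ _ := rfl

instance uniqueAlphaPull : Unique (alphaPull N ℓ).X := inferInstanceAs (Unique Unit)

instance uniqueBetaPull : Unique (betaPull N ℓ).X := inferInstanceAs (Unique Unit)

/-- The pushforward along `τ ↦ τ`. -/
def alphaPush : HData (Gamma0 (N * ℓ)) (Gamma0 N) :=
  doubleData (Gamma0 (N * ℓ)) 1 (fun ε hε => ⟨ε, hε, by rw [one_mul, mul_one]⟩)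
    (fun δ hδ ε _ h => by
      rw [one_mul, mul_one] at h
      rw [HeckeHom.mapGL_inj h]
      exact hδ)

variable {L : Type*} [Field L] [Algebra ℚ L] [IsAlgClosed L] (ι : L →+* ℂ)

variable (L) in
theorem finrank_alpha : finrankAlong L (heckeAlphaBar L N ℓ) = Nat.card (Cos N ℓ) := by
  have hle : FF L N ≤ FF L (N * ℓ) := by
    intro y hy
    have h1 : ((heckeAlphaBar L N ℓ ⟨y, hy⟩ : FF L (N * ℓ)) : LaurentSeries L) = y :=
      coe_heckeAlphaBar N ℓ _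
    rw [← h1]
    exact (heckeAlphaBar L N ℓ ⟨y, hy⟩).2
  rw [finrankAlong_eq_relfinrank (heckeAlphaBar L N ℓ) (FF L N) (fun y =>
    ⟨fun hy => ⟨⟨y, hy⟩, coe_heckeAlphaBar N ℓ _⟩, by
      rintro ⟨x, rfl⟩; rw [coe_heckeAlphaBar]; exact x.2⟩)]
  have h0 : IntermediateField.adjoin L {jqModC L} ≤ FF L N := by
    rw [IntermediateField.adjoin_simple_le_iff, ← coe_jF L N]
    exact (X0Places.jF L N).2
  have h1 := IntermediateField.relfinrank_mul_relfinrank h0 hle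
  have h2 := finrank_adjoin_eq_relfinrank (FF L N) (X0Places.jF L N)
  have h3 := finrank_adjoin_eq_relfinrank (FF L (N * ℓ)) (X0Places.jF L (N * ℓ))
  rw [coe_jF] at h2 h3
  rw [← h2, ← h3, finrank_jF, finrank_jF, ← card_cos_mul, mul_comm] at h1
  exact mul_right_cancel₀ (Nat.card_pos (α := XN N)).ne' h1

/-- The norm along `F_N ⊆ F_{Nℓ}` is the product over the cosets. -/
theorem toMer_norm (y : FF L (N * ℓ)) :
    toMer ι N (normAlong (heckeAlphaBar L N ℓ) y) =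
      ∏ c : Cos N ℓ, compMer ((rep (Gamma0 (N * ℓ)) c : Gamma0 N) : SL(2, ℤ))
        (toMer ι (N * ℓ) y) := by
  letI := algebraAlong (heckeAlphaBar L N ℓ)
  haveI : Module.Finite (FF L N) (FF L (N * ℓ)) := finiteAlong_of_isFF (heckeAlphaBar L N ℓ)
  have hcard : Fintype.card (Cos N ℓ) = Module.finrank (FF L N) (FF L (N * ℓ)) := by
    rw [← Nat.card_eq_fintype_card]
    exact (finrank_alpha N ℓ L).symm
  refine Fermat.Agent.AtkinLehner.norm_eq_prod (toMer ι N)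
    (fun c : Cos N ℓ => (compMer ((rep (Gamma0 (N * ℓ)) c : Gamma0 N) : SL(2, ℤ))).comp
      (toMer ι (N * ℓ))) ?_ ?_ hcard y
  · intro c x
    have h1 : toMer ι (N * ℓ) (algebraMap (FF L N) (FF L (N * ℓ)) x) = toMer ι N x :=
      toMer_alpha ι N ℓ x
    rw [RingHom.comp_apply, h1, toMer_invariant]
  · intro c c' h
    have h1 : ∀ d : Cos N ℓ, (compMer ((rep (Gamma0 (N * ℓ)) d : Gamma0 N) : SL(2, ℤ))).comp
        (toMer ι (N * ℓ)) = sigma (L := L) ι (N * ℓ)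
          ((((rep (Gamma0 (N * ℓ)) d : Gamma0 N) : SL(2, ℤ))⁻¹ : SL(2, ℤ)) : XN (N * ℓ)) := by
      intro d
      ext x
      rw [sigma_mk, inv_inv, RingHom.comp_apply]
    have h2 : (compMer ((rep (Gamma0 (N * ℓ)) c : Gamma0 N) : SL(2, ℤ))).comp
        (toMer ι (N * ℓ)) = (compMer ((rep (Gamma0 (N * ℓ)) c' : Gamma0 N) : SL(2, ℤ))).comp
        (toMer (L := L) ι (N * ℓ)) := h
    rw [h1, h1] at h2
    have h3 := sigma_injective ι (N * ℓ) h2
    rw [QuotientGroup.eq, inv_inv] at h3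
    rw [← rep_mul_inv_mem_iff (Gamma0 (N * ℓ))]
    exact h3

variable {ι}

omit [IsAlgClosed L] in
theorem alphaPull_pos (x : (alphaPull N ℓ).X) : 0 < (((alphaPull N ℓ).α x).det : ℝ) := by
  show 0 < (((1 : GL (Fin 2) ℝ)).det : ℝ)
  simp

theorem IsChar.alphaPull {n : ℕ} {D : Divisor L (FF L N)} {χ : Gamma0 N →* ℂˣ}
    (h : IsChar ι N n D χ) {χ' : Gamma0 (N * ℓ) →* ℂˣ}
    (hχ' : MonoidHom.toAdditive χ' =
      (alphaPull N ℓ).hom (Additive ℂˣ) (MonoidHom.toAdditive χ)) :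
    IsChar ι (N * ℓ) n (Divisor.pullbackAlong (heckeAlphaBar L N ℓ) (alphaInt L N ℓ) D) χ' := by
  refine h.hdata (TorsCmp.alphaPull N ℓ) (alphaPull_pos N ℓ) _ (heckeAlphaBar L N ℓ) ?_ ?_ ?_ hχ'
  · intro x hx
    rwa [map_ne_zero]
  · intro x hx
    exact pullbackAlong_divOf _ _ x
  · intro x
    rw [toMer_alpha]
    symm
    refine (Fintype.prod_unique _).trans ?_
    show compG 1 (toMer ι N x) = toMer ι N x
    have h1 : (1 : GL (Fin 2) ℝ) = mapGL ℝ (1 : SL(2, ℤ)) := by rw [map_one]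
    rw [h1, compG_mapGL, compMer_one]

theorem IsChar.betaPull {n : ℕ} {D : Divisor L (FF L N)} {χ : Gamma0 N →* ℂˣ}
    (h : IsChar ι N n D χ) {χ' : Gamma0 (N * ℓ) →* ℂˣ}
    (hχ' : MonoidHom.toAdditive χ' =
      (betaPull N ℓ).hom (Additive ℂˣ) (MonoidHom.toAdditive χ)) :
    IsChar ι (N * ℓ) n (Divisor.pullbackAlong (heckeBetaBar L N ℓ) (betaInt L N ℓ) D) χ' := by
  refine h.hdata (TorsCmp.betaPull N ℓ) (fun _ => det_heckeDiagMatrix_pos ℓ) _
    (heckeBetaBar L N ℓ) ?_ ?_ ?_ hχ'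
  · intro x hx
    rwa [map_ne_zero]
  · intro x hx
    exact pullbackAlong_divOf _ _ x
  · intro x
    rw [toMer_beta]
    symm
    exact Fintype.prod_unique _

theorem IsChar.alphaPush {n : ℕ} {D : Divisor L (FF L (N * ℓ))} {χ : Gamma0 (N * ℓ) →* ℂˣ}
    (h : IsChar ι (N * ℓ) n D χ) {χ' : Gamma0 N →* ℂˣ}
    (hχ' : MonoidHom.toAdditive χ' =
      (alphaPush N ℓ).hom (Additive ℂˣ) (MonoidHom.toAdditive χ)) :
    IsChar ι N n (Divisor.pushforwardAlong (heckeAlphaBar L N ℓ) (alphaInt L N ℓ) D) χ' := by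
  have hpos : ∀ c : Cos N ℓ, 0 < ((((1 : GL (Fin 2) ℝ) *
      mapGL ℝ ((rep (Gamma0 (N * ℓ)) c : Gamma0 N) : SL(2, ℤ))).det : ℝˣ) : ℝ) := by
    intro c
    rw [one_mul]
    exact det_mapGL_pos _
  refine h.hdata (TorsCmp.alphaPush N ℓ) hpos _ (normAlong (heckeAlphaBar L N ℓ)) ?_ ?_ ?_ hχ'
  · intro x hx
    exact normAlong_ne_zero _ (finiteAlong_of_isFF _) hx
  · intro x hx
    exact pushforwardAlong_divOf _ _ (finiteAlong_of_isFF _) hx
  · intro x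
    rw [toMer_norm]
    refine Finset.prod_congr rfl fun c _ => ?_
    show _ = compG (1 * mapGL ℝ ((rep (Gamma0 (N * ℓ)) c : Gamma0 N) : SL(2, ℤ))) _
    rw [one_mul, compG_mapGL]

/-- **The comparison is compatible with Hecke correspondences.** -/
theorem IsChar.hecke {n : ℕ} {D : Divisor L (FF L N)} {χ : Gamma0 N →* ℂˣ}
    (h : IsChar ι N n D χ) {χ' : Gamma0 N →* ℂˣ}
    (hχ' : MonoidHom.toAdditive χ' =
      (heckeData N ℓ).hom (Additive ℂˣ) (MonoidHom.toAdditive χ)) :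
    IsChar ι N n (Divisor.correspondence (heckeBetaBar L N ℓ) (heckeAlphaBar L N ℓ)
      (betaInt L N ℓ) (alphaInt L N ℓ) D) χ' := by
  have hpos : ∀ c : Cos N ℓ, 0 < (((heckeDiagMatrix ℓ *
      mapGL ℝ ((rep (Gamma0 (N * ℓ)) c : Gamma0 N) : SL(2, ℤ))).det : ℝˣ) : ℝ) := by
    intro c
    rw [map_mul, Units.val_mul]
    exact mul_pos (det_heckeDiagMatrix_pos ℓ) (det_mapGL_pos _)
  refine h.hdata (heckeData N ℓ) hpos _
    (fun x => normAlong (heckeAlphaBar L N ℓ) (heckeBetaBar L N ℓ x)) ?_ ?_ ?_ hχ'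
  · intro x hx
    exact normAlong_ne_zero _ (finiteAlong_of_isFF _) (by rwa [map_ne_zero])
  · intro x hx
    exact correspondence_divOf _ _ _ _ (finiteAlong_of_isFF _) hx
  · intro x
    rw [toMer_norm]
    refine Finset.prod_congr rfl fun c _ => ?_
    show _ = compG (heckeDiagMatrix ℓ * mapGL ℝ ((rep (Gamma0 (N * ℓ)) c : Gamma0 N) : SL(2, ℤ))) _
    rw [compG_mul _ _ (det_heckeDiagMatrix_pos ℓ) (det_mapGL_pos _), compG_mapGL, toMer_beta]

end Fermat.Agent.TorsCmp
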