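import Fermat.Agent.TorsCmp.Basic

/-!
# Expansions of roots of modular functions
-/

set_option autoImplicit false
set_option linter.unusedSectionVars false

noncomputable section

open UpperHalfPlane Function ModularCurve Filter ModularForm AlgebraicCurve WithZero
  CongruenceSubgroup
open scoped Manifold MatrixGroups Topology ModularForm

namespace Fermat.Agent.TorsCmp

open Fermat.Agent.X0Places Fermat.Agent.FunField Fermat.Agent.FunField.PlaceLemmas
open Function.Periodic (qParam)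

theorem mdiff_qParam (h : ℝ) : MDiff (fun τ : ℍ => qParam h (τ : ℂ)) := by
  rw [UpperHalfPlane.mdifferentiable_iff]
  refine (Function.Periodic.differentiable_qParam (h := h)).differentiableOn.congr fun z hz => ?_
  rw [comp_apply, ofComplex_apply_of_im_pos hz]

theorem qParam_vadd {h : ℝ} (hh : h ≠ 0) (τ : ℍ) : qParam h ((h +ᵥ τ : ℍ) : ℂ) = qParam h τ := by
  have h5 : (h : ℂ) ≠ 0 := by exact_mod_cast hh
  rw [UpperHalfPlane.coe_vadd]
  simp only [qParam]
  rw [show 2 * (Real.pi : ℂ) * Complex.I * (h + τ) / h =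
    2 * Real.pi * Complex.I * τ / h + 2 * Real.pi * Complex.I by field_simp; ring,
    Complex.exp_add, Complex.exp_two_pi_mul_I, mul_one]

/-- a periodic holomorphic function of moderate growth has a Laurent expansion -/
theorem hasLaurent_of_growth {h : ℝ} (hh : 0 < h) {F : ℍ → ℂ} (hF : MDiff F)
    (hper : ∀ τ : ℍ, F (h +ᵥ τ) = F τ) {m : ℕ}
    (hb : IsBoundedAtImInfty (fun τ : ℍ => qParam h τ ^ m * F τ)) :
    ∃ y, HasLaurent h F y := by
  set F₁ : ℍ → ℂ := fun τ => qParam h τ ^ m * F τ with hF₁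
  have hmd : MDiff F₁ := by
    have h1 : F₁ = (fun τ : ℍ => qParam h (τ : ℂ)) ^ m * F := rfl
    rw [h1]
    exact ((mem_holo.2 (mdiff_qParam h) |> fun h => Holo.pow_mem h m) : _ ∈ Holo).mul hF
  have hp : Periodic (F₁ ∘ ofComplex) h := by
    intro w
    by_cases hw : 0 < w.im
    · have h1 : 0 < (w + h).im := by simpa using hw
      simp only [comp_apply, ofComplex_apply_of_im_pos h1, ofComplex_apply_of_im_pos hw]
      have h2 : (⟨w + h, h1⟩ : ℍ) = h +ᵥ (⟨w, hw⟩ : ℍ) := by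
        apply UpperHalfPlane.ext
        rw [UpperHalfPlane.coe_vadd]
        exact add_comm _ _
      rw [h2, hF₁]
      show qParam h _ ^ m * F _ = qParam h _ ^ m * F _
      rw [hper, qParam_vadd hh.ne']
    · have h1 : (w + h).im ≤ 0 := by simpa using hw
      have h2 : w.im ≤ 0 := by simpa using hw
      simp [ofComplex_apply_of_im_nonpos h1, ofComplex_apply_of_im_nonpos h2]
  refine ⟨HahnSeries.single (-(m : ℤ)) 1 * HahnSeries.ofPowerSeries ℤ ℂ (qExpansion h F₁), m,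
    qExpansion h F₁, ?_, fun τ => ?_⟩
  · rw [← mul_assoc, HahnSeries.single_mul_single]
    simp
  · simpa [smul_eq_mul] using hasSum_qExpansion hh hp hmd hb τ

theorem bounded_of_pow {F : ℍ → ℂ} {n : ℕ} (hn : n ≠ 0)
    (h : IsBoundedAtImInfty (fun τ => F τ ^ n)) : IsBoundedAtImInfty F := by
  rw [isBoundedAtImInfty_iff] at h ⊢
  obtain ⟨M, A, h⟩ := h
  refine ⟨max M 1, A, fun z hz => ?_⟩
  by_contra hcon
  push Not at hcon
  have h1 := h z hz
  rw [norm_pow] at h1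
  have h2 : M < ‖F z‖ := lt_of_le_of_lt (le_max_left _ _) hcon
  have h3 : 1 < ‖F z‖ := lt_of_le_of_lt (le_max_right _ _) hcon
  have h4 : ‖F z‖ ≤ ‖F z‖ ^ n := le_self_pow₀ h3.le hn
  linarith

/-- Expansions of roots -/
theorem exists_hasLaurent_root {N k n : ℕ} [NeZero N] [NeZero k] (hn : n ≠ 0) {F φ : ℍ → ℂ}
    (hF : MDiff F) (hFφ : ∀ τ, F τ ^ n = φ τ) {x : LaurentSeries ℂ} (hφ : HasLaurent N φ x)
    (hper : ∀ τ : ℍ, F (ModularGroup.T ^ (N * k : ℕ) • τ) = F τ) :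
    ∃ y, HasLaurent (N * k : ℕ) F y := by
  obtain ⟨m, P, h1, h2⟩ := hφ
  have hpos : (0 : ℝ) < ((N * k : ℕ) : ℝ) := by
    exact_mod_cast Nat.mul_pos (Nat.pos_of_ne_zero (NeZero.ne N)) (Nat.pos_of_ne_zero (NeZero.ne k))
  have hq : ∀ τ : ℍ, qParam ((N * k : ℕ) : ℝ) τ ^ k = qParam N τ := by
    intro τ
    have hN : (N : ℝ) ≠ 0 := by exact_mod_cast NeZero.ne N
    have := qParam_mul_width (h := (N : ℝ)) hN k (τ : ℂ)
    rw [← this]
    congr 2
    push_cast
    ring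
  refine hasLaurent_of_growth hpos hF (fun τ => ?_) (m := k * m) ?_
  · have h3 := hper τ
    have h4 : (((N * k : ℕ) : ℝ) +ᵥ τ : ℍ) = ModularGroup.T ^ (N * k : ℕ) • τ := by
      rw [← zpow_natCast, modular_T_zpow_smul]
      norm_cast
    rw [h4, h3]
  · apply bounded_of_pow hn
    have h5 : (fun τ : ℍ => (qParam ((N * k : ℕ) : ℝ) τ ^ (k * m) * F τ) ^ n) =
        fun τ : ℍ => qParam N τ ^ (m * (n - 1)) * (qParam N τ ^ m * φ τ) := by
      funext τ
      rw [pow_mul, hq, mul_pow, hFφ, ← mul_assoc, ← pow_mul, ← pow_add]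
      congr 2
      obtain ⟨j, rfl⟩ := Nat.exists_eq_succ_of_ne_zero hn
      simp
      ring
    rw [h5]
    have h6 := h2.bounded (natCast_pos N)
    rw [isBoundedAtImInfty_iff] at h6 ⊢
    obtain ⟨M, A, h6⟩ := h6
    refine ⟨M, A, fun z hz => ?_⟩
    have h7 := h6 z hz
    have h8 : ‖qParam (N : ℝ) (z : ℂ) ^ (m * (n - 1))‖ ≤ 1 := by
      rw [norm_pow]
      exact pow_le_one₀ (norm_nonneg _) (Periodic.norm_qParam_lt_one (natCast_pos N) z.im_pos).le
    rw [norm_mul]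
    calc _ ≤ 1 * ‖qParam (N : ℝ) (z : ℂ) ^ m * φ z‖ :=
          mul_le_mul_of_nonneg_right h8 (norm_nonneg _)
      _ ≤ M := by rw [one_mul]; exact h7

theorem mdiff_comp_smul {G : ℍ → ℂ} (hG : MDiff G) (γ : SL(2, ℤ)) : MDiff (fun τ => G (γ • τ)) :=
  (compHolo γ ⟨G, hG⟩).2

theorem conj_T_pow_mem (N : ℕ) (γ : SL(2, ℤ)) :
    γ * ModularGroup.T ^ N * γ⁻¹ ∈ Gamma0 N := by
  have h1 : ModularGroup.T ^ N ∈ Gamma N := by
    rw [Gamma_mem]
    have h2 := ModularGroup.coe_T_zpow (N : ℤ)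
    rw [zpow_natCast] at h2
    have h3 : ∀ i j, ((ModularGroup.T ^ N : SL(2, ℤ)) i j : ℤ) = !![1, (N : ℤ); 0, 1] i j := by
      intro i j; rw [h2]
    refine ⟨?_, ?_, ?_, ?_⟩ <;> rw [h3] <;> simp
  have h2 := (Gamma_normal N).conj_mem _ h1 γ
  rw [Gamma_mem] at h2
  rw [Gamma0_mem]
  exact h2.2.2.1

/-- A `Γ₀(N)`-invariant holomorphic root of an analytic modular function is analytic. -/
theorem isAn_of_pow {N n : ℕ} [NeZero N] (hn : n ≠ 0) {G : ℍ → ℂ} (hG : MDiff G)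
    (hinv : ∀ γ ∈ Gamma0 N, ∀ τ, G (γ • τ) = G τ) {φ : ℍ → ℂ} (hφ : IsAn N φ)
    (h : ∀ τ, G τ ^ n = φ τ) : IsAn N G := by
  refine ⟨hG, fun γ => ?_, hinv⟩
  obtain ⟨x, hx⟩ := hφ.exp γ
  obtain ⟨y, hy⟩ := exists_hasLaurent_root (k := 1) hn (mdiff_comp_smul hG γ)
    (fun τ => h (γ • τ)) hx (fun τ => by
      rw [mul_one]
      have h1 := hinv _ (conj_T_pow_mem N γ) (γ • τ)
      rw [← h1, mul_smul, mul_smul, inv_smul_smul])
  rw [mul_one] at hy
  exact ⟨y, hy⟩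

end Fermat.Agent.TorsCmp
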