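import Fermat.Agent.TorsCmp.Parabolic
import Fermat.Agent.TorsCmp.Descent

/-!
# Roots with trivial character are modular functions
-/

set_option autoImplicit false
set_option linter.unusedSectionVars false

noncomputable section

open UpperHalfPlane Function ModularCurve Filter ModularForm AlgebraicCurve WithZero
  CongruenceSubgroup
open scoped Manifold MatrixGroups Topology ModularForm

namespace Fermat.Agent.TorsCmp

open Fermat.Agent.X0Places Fermat.Agent.FunField Fermat.Agent.FunField.PlaceLemmas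

variable {L : Type*} [Field L] [Algebra ℚ L] (ι : L →+* ℂ) (N : ℕ) [NeZero N]

theorem hasLaurent_pow {h : ℝ} {f : ℍ → ℂ} {y : LaurentSeries ℂ} (hf : HasLaurent h f y) (k : ℕ) :
    HasLaurent h (f ^ k) (y ^ k) := by
  induction k with
  | zero => rw [pow_zero, pow_zero]; exact HasLaurent.const 1
  | succ k ih => rw [pow_succ, pow_succ]; exact ih.mul hf

/-- An invariant `n`-th root of a modular function whose divisor is divisible by `n` is a modular
function (with the same field of constants). -/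
theorem exists_of_invariant [IsAlgClosed L] [IsFF L (FF L N)] {n : ℕ} (hn0 : n ≠ 0)
    {x : FF L N} (hx : x ≠ 0) (hn : ∀ v : Place L (FF L N), (n : ℤ) ∣ v.ord x) {G : Mer}
    (hG : G ^ n = toMer ι N x) (hinv : ∀ γ ∈ Gamma0 N, compMer γ G = G) :
    ∃ h : FF L N, h ^ n = x ∧ toMer ι N h = G := by
  have hchar : CharZero L := algebraRat.charZero L
  obtain ⟨b, a, H, hb, hH0, ha, hHG, hHn⟩ := exists_holo ι N hn0 hx hn hG
  have hinvH : ∀ γ ∈ Gamma0 N, ∀ τ, (H : ℍ → ℂ) (γ • τ) = (H : ℍ → ℂ) τ := by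
    intro γ hγ τ
    have h1 : compMer γ (algebraMap Holo Mer H) = algebraMap Holo Mer H := by
      rw [hHG, map_mul, hinv γ hγ]
      have h2 : compMer γ (toMer ι N (algebraMap (AF ι N) (FF L N) b)) = _ :=
        RingHom.congr_fun (compMer_toMer ι N hγ) _
      rw [h2]
    rw [compMer_algebraMap] at h1
    exact congrFun (congrArg Subtype.val (IsFractionRing.injective Holo Mer h1)) τ
  have hφ : ∀ τ, (H : ℍ → ℂ) τ ^ n = anFn (afToAnR ι N a) τ := fun τ =>
    congrFun (congrArg Subtype.val hHn) τ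
  have hAn : IsAn N (H : ℍ → ℂ) := isAn_of_pow hn0 H.2 hinvH (isAn_anFn (afToAnR ι N a)) hφ
  obtain ⟨y, hy⟩ := hAn.hasLaurent_one
  have hyF := hAn.mem_FF N hy
  have hyn : y ^ n = coeffMap ι ((a : FF L N) : LaurentSeries L) := by
    have h1 := hasLaurent_pow hy n
    have h2 : (H : ℍ → ℂ) ^ n = anFn (afToAnR ι N a) := by
      funext τ; exact hφ τ
    rw [h2] at h1
    exact h1.unique one_pos (hasLaurent_anFn (afToAnR ι N a))
  have ha0 : (a : FF L N) ≠ 0 := by
    have h1 : (a : FF L N) = x * algebraMap (AF ι N) (FF L N) b ^ n := ha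
    rw [h1]
    exact mul_ne_zero hx (pow_ne_zero _ hb)
  obtain ⟨w, hw, hwy⟩ := exists_coeffMap_eq_of_pow ι (n := n) (by exact_mod_cast hn0)
    (z := ((a : FF L N) : LaurentSeries L)) (fun h => ha0 (Subtype.ext h)) hyn
  have hwF : w ∈ FF L N := mem_laurentBaseChange_of_coeffMap ι _ (by rw [hwy]; exact hyF)
  set w' : FF L N := ⟨w, hwF⟩ with hw'
  have hw'n : w' ^ n = algebraMap (AF ι N) (FF L N) a := Subtype.ext hw
  have hw'H : toMer ι N w' = algebraMap Holo Mer H := by
    apply toMer_of_mem H hAn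
    show HasLaurent 1 _ (coeffMap ι w)
    rw [hwy]
    exact hy
  have hb1 : toMer ι N (algebraMap (AF ι N) (FF L N) b) ≠ 0 := by rwa [map_ne_zero]
  refine ⟨w' / algebraMap (AF ι N) (FF L N) b, ?_, ?_⟩
  · rw [div_pow, hw'n, ha, mul_div_assoc, div_self (pow_ne_zero _ hb), mul_one]
  · rw [map_div₀, hw'H, hHG, mul_div_assoc, div_self hb1, mul_one]

end Fermat.Agent.TorsCmp
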