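import Fermat.Agent.TorsCmp.Map
import Fermat.Agent.HeckeHom.UOp
import Fermat.Agent.HeckeRed.Along
import Fermat.Agent.HeckeRed.Inputs

/-!
# The action of `GL₂⁺(ℝ)` on meromorphic functions and Hecke correspondences
-/

set_option autoImplicit false
set_option linter.unusedSectionVars false

noncomputable section

open UpperHalfPlane Function ModularCurve Filter ModularForm AlgebraicCurve WithZero
  CongruenceSubgroup
open scoped Manifold MatrixGroups Topology ModularForm

namespace Fermat.Agent.TorsCmp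

open Fermat.Agent.X0Places Fermat.Agent.FunField Fermat.Agent.FunField.PlaceLemmas
open Matrix.SpecialLinearGroup (mapGL)

/-- composition with `g ∈ GL₂⁺(ℝ)` on holomorphic functions -/
def glHolo (g : GL (Fin 2) ℝ) (hg : 0 < (g.det : ℝ)) : Holo →+* Holo where
  toFun f := ⟨fun z => (f : ℍ → ℂ) (g • z), by
    have h := MDifferentiable.comp (f := fun z : ℍ => g • z)
      (g := (f : ℍ → ℂ)) (mem_holo.1 f.2) (mdifferentiable_smul hg)
    exact h⟩
  map_one' := rfl
  map_mul' f g := rfl
  map_zero' := rfl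
  map_add' f g := rfl

theorem glHolo_apply (g : GL (Fin 2) ℝ) (hg : 0 < (g.det : ℝ)) (f : Holo) (z : ℍ) :
    (glHolo g hg f : ℍ → ℂ) z = (f : ℍ → ℂ) (g • z) := rfl

theorem glHolo_injective (g : GL (Fin 2) ℝ) (hg : 0 < (g.det : ℝ)) : Injective (glHolo g hg) := by
  intro f f' h
  apply Subtype.ext
  funext z
  have h1 := congrFun (congrArg Subtype.val h) (g⁻¹ • z)
  have h2 : (f : ℍ → ℂ) (g • g⁻¹ • z) = (f' : ℍ → ℂ) (g • g⁻¹ • z) := h1
  simpa using h2

open Classical in
/-- composition with `g ∈ GL₂⁺(ℝ)` on meromorphic functions -/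
def compG (g : GL (Fin 2) ℝ) : Mer →+* Mer :=
  if hg : 0 < (g.det : ℝ) then
    IsFractionRing.lift (A := Holo) (K := Mer) (g := (algebraMap Holo Mer).comp (glHolo g hg))
      ((IsFractionRing.injective Holo Mer).comp (glHolo_injective g hg))
  else RingHom.id Mer

theorem compG_algebraMap (g : GL (Fin 2) ℝ) (hg : 0 < (g.det : ℝ)) (f : Holo) :
    compG g (algebraMap Holo Mer f) = algebraMap Holo Mer (glHolo g hg f) := by
  rw [compG, dif_pos hg]
  exact IsFractionRing.lift_algebraMap _ f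

theorem compG_mul (g h : GL (Fin 2) ℝ) (hg : 0 < (g.det : ℝ)) (hh : 0 < (h.det : ℝ)) (x : Mer) :
    compG (g * h) x = compG h (compG g x) := by
  obtain ⟨a, b, hb, rfl⟩ := IsFractionRing.div_surjective (A := Holo) x
  have hgh : 0 < ((g * h).det : ℝ) := by
    rw [map_mul, Units.val_mul]
    exact mul_pos hg hh
  have h1 : ∀ f : Holo, glHolo (g * h) hgh f = glHolo h hh (glHolo g hg f) := by
    intro f
    apply Subtype.ext
    funext z
    rw [glHolo_apply, glHolo_apply, glHolo_apply, mul_smul]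
  simp only [map_div₀, compG_algebraMap g hg, compG_algebraMap h hh,
    compG_algebraMap (g * h) hgh, h1]

theorem det_mapGL_pos (γ : SL(2, ℤ)) : 0 < ((mapGL ℝ γ : GL (Fin 2) ℝ).det : ℝ) := by
  simp

theorem compG_mapGL (γ : SL(2, ℤ)) : compG (mapGL ℝ γ) = compMer γ := by
  apply IsFractionRing.ringHom_ext (A := Holo)
  intro f
  rw [compG_algebraMap _ (det_mapGL_pos γ), compMer_algebraMap]
  rfl

theorem compG_cM (g : GL (Fin 2) ℝ) (c : ℂ) : compG g (cM c) = cM c := by
  by_cases hg : 0 < (g.det : ℝ)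
  · rw [cM_apply, compG_algebraMap g hg]
    rfl
  · rw [compG, dif_neg hg]
    rfl

variable {L : Type*} [Field L] [Algebra ℚ L] [IsAlgClosed L] {ι : L →+* ℂ}

/-- Abstract Hecke correspondences: if a multiplicative map `t` on modular functions is given
by `∏_x f ∘ α_x` then the corresponding operator on divisors acts on characters of torsion
classes by `HData.hom`. -/
theorem IsChar.hdata {M M' : ℕ} [NeZero M] [NeZero M']
    (H : HeckeHom.HData (Gamma0 M) (Gamma0 M')) (hpos : ∀ x, 0 < ((H.α x).det : ℝ))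
    (TD : Divisor L (FF L M) →+ Divisor L (FF L M')) (t : FF L M → FF L M')
    (ht0 : ∀ x, x ≠ 0 → t x ≠ 0) (hTD : ∀ x, x ≠ 0 → TD (divOf x) = divOf (t x))
    (hmer : ∀ x, toMer ι M' (t x) = ∏ c : H.X, compG (H.α c) (toMer ι M x))
    {n : ℕ} {D : Divisor L (FF L M)} {χ : Gamma0 M →* ℂˣ} (h : IsChar ι M n D χ)
    {χ' : Gamma0 M' →* ℂˣ}
    (hχ' : MonoidHom.toAdditive χ' = H.hom (Additive ℂˣ) (MonoidHom.toAdditive χ)) :
    IsChar ι M' n (TD D) χ' := by
  obtain ⟨x, G, hx, hD, hG, hχ⟩ := h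
  refine ⟨t x, ∏ c : H.X, compG (H.α c) G, ht0 x hx, fun v => ?_, ?_, fun γ => ?_⟩
  · have h1 : n • D = divOf x := by
      ext v
      rw [Finsupp.smul_apply, divOf_apply, ← hD, nsmul_eq_mul]
    have h2 := hTD x hx
    rw [← h1, map_nsmul] at h2
    have h3 := DFunLike.congr_fun h2 v
    rw [Finsupp.smul_apply, divOf_apply, nsmul_eq_mul] at h3
    exact h3
  · rw [hmer, ← Finset.prod_pow]
    refine Finset.prod_congr rfl fun c _ => ?_
    rw [← map_pow, hG]
  · have h1 : ∀ c : H.X, compMer (γ : SL(2, ℤ)) (compG (H.α c) G) =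
        cM (χ (H.coc γ c)) * compG (H.α (H.actFun γ c)) G := by
      intro c
      rw [← compG_mapGL, ← compG_mul _ _ (hpos c) (det_mapGL_pos _), H.spec γ c,
        compG_mul _ _ (det_mapGL_pos _) (hpos _), compG_mapGL, hχ, map_mul, compG_cM]
    rw [map_prod, Finset.prod_congr rfl fun c _ => h1 c, Finset.prod_mul_distrib]
    congr 1
    · have h2 := DFunLike.congr_fun hχ' (Additive.ofMul γ)
      have h3 : Additive.ofMul (χ' γ) = ∑ c : H.X, Additive.ofMul (χ (H.coc γ c)) := h2
      rw [← ofMul_prod] at h3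
      have h4 : χ' γ = ∏ c : H.X, χ (H.coc γ c) := Additive.ofMul.injective h3
      rw [h4, Units.coe_prod, map_prod]
    · exact Equiv.prod_comp (H.perm γ) (fun c => compG (H.α c) G)

end Fermat.Agent.TorsCmp
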