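import Fermat.Agent.TorsCmp.Basic

/-!
# Characters of roots are trivial on elliptic elements
-/

set_option autoImplicit false
set_option linter.unusedSectionVars false

noncomputable section

open UpperHalfPlane Function ModularCurve Filter ModularForm AlgebraicCurve WithZero
  CongruenceSubgroup
open scoped Manifold MatrixGroups Topology ModularForm

namespace Fermat.Agent.TorsCmp

open Fermat.Agent.X0Places Fermat.Agent.FunField Fermat.Agent.FunField.PlaceLemmas

/-- The multiplier at a fixed point is a power of the derivative. -/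
theorem eq_derivAt_zpow {τ : ℍ} {γ : SL(2, ℤ)} (hγ : γ • τ = τ) {y : Mer} (hy : y ≠ 0)
    {c : ℂˣ} (hinv : compMer γ y = cM c * y) {k : ℤ} (hk : valMer τ y = exp (-k)) :
    (c : ℂ) = derivAt γ τ ^ k := by
  obtain ⟨a, b, hb, rfl⟩ := IsFractionRing.div_surjective (A := Holo) y
  have hb0 : b ≠ 0 := nonZeroDivisors.ne_zero hb
  have hb0' : algebraMap Holo Mer b ≠ 0 := by
    rw [map_ne_zero_iff _ (IsFractionRing.injective Holo Mer)]; exact hb0
  have ha0 : a ≠ 0 := by
    rintro rfl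
    simp at hy
  have ha0' : algebraMap Holo Mer a ≠ 0 := by
    rw [map_ne_zero_iff _ (IsFractionRing.injective Holo Mer)]; exact ha0
  have hcb : algebraMap Holo Mer (compHolo γ b) ≠ 0 := by
    rw [map_ne_zero_iff _ (IsFractionRing.injective Holo Mer)]
    intro h
    exact hb0 (compHolo_injective γ (h.trans (map_zero _).symm))
  rw [map_div₀, compMer_algebraMap, compMer_algebraMap, cM_apply, ← mul_div_assoc,
    div_eq_div_iff hcb hb0', ← map_mul, ← map_mul, ← map_mul] at hinv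
  have h1 := IsFractionRing.injective Holo Mer hinv
  have h2 : (fun z => (a : ℍ → ℂ) (γ • z)) * (b : ℍ → ℂ) =
      (fun _ => (c : ℂ)) * (a : ℍ → ℂ) * (fun z => (b : ℍ → ℂ) (γ • z)) := congrArg Subtype.val h1
  have ha1 : (a : ℍ → ℂ) ≠ 0 := fun h => ha0 (Subtype.ext h)
  have hb1 : (b : ℍ → ℂ) ≠ 0 := fun h => hb0 (Subtype.ext h)
  obtain ⟨ca, hca⟩ := exists_hasLead (τ := τ) a.2 ha1
  obtain ⟨cb, hcb⟩ := exists_hasLead (τ := τ) b.2 hb1
  have hc : HasLead τ (fun _ => (c : ℂ)) 0 c := by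
    refine ⟨c.ne_zero, ?_⟩
    simp only [pow_zero, div_one]
    exact tendsto_const_nhds
  have h3 := (hca.comp hγ).mul hcb
  have h4 := (hc.mul hca).mul (hcb.comp hγ)
  rw [h2, zero_add] at *
  have h5 := h3.unique h4
  set n := (ordH τ (a : ℍ → ℂ)).toNat
  set m := (ordH τ (b : ℍ → ℂ)).toNat
  have h6 : derivAt γ τ ^ n = c * derivAt γ τ ^ m := by
    have h7 : ca * cb ≠ 0 := mul_ne_zero hca.1 hcb.1
    apply mul_left_cancel₀ h7
    linear_combination h5
  rw [map_div₀, valMer_algebraMap, valMer_algebraMap, valHolo_apply τ ha0, valHolo_apply τ hb0,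
    ← exp_sub, exp_inj] at hk
  have h8 : k = (n : ℤ) - m := by
    have : -(n : ℤ) - -(m : ℤ) = -k := hk
    omega
  rw [h8, zpow_sub₀ (derivAt_ne_zero γ τ), zpow_natCast, zpow_natCast, h6,
    mul_div_cancel_right₀ _ (pow_ne_zero _ (derivAt_ne_zero γ τ))]

variable {L : Type*} [Field L] [Algebra ℚ L] (ι : L →+* ℂ) (N : ℕ) [NeZero N]

/-- The character of a root is trivial on elliptic elements. -/
theorem char_elliptic [IsFF L (FF L N)] {n : ℕ} (hn0 : n ≠ 0) {x : FF L N} (hx : x ≠ 0)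
    (hn : ∀ v : Place L (FF L N), (n : ℤ) ∣ v.ord x) {G : Mer} (hG : G ^ n = toMer ι N x)
    {γ : SL(2, ℤ)} (hγN : γ ∈ Gamma0 N) {τ : ℍ} (hγ : γ • τ = τ) {c : ℂˣ}
    (hc : compMer γ G = cM c * G) : c = 1 := by
  have hx' : toMer ι N x ≠ 0 := by rwa [map_ne_zero]
  have hG0 : G ≠ 0 := by
    rintro rfl
    rw [zero_pow hn0] at hG
    exact hx' hG.symm
  obtain ⟨k, hk⟩ := exists_val_eq_exp (valMer τ) hG0
  have h1 : valMer τ (toMer ι N x) = exp (-((n : ℤ) * k)) := by
    rw [← hG, map_pow, hk, ← exp_nsmul]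
    congr 1
    simp
  have h2 := dvd_valMer ι N (e := orderOf (derivAt γ τ)) hx hn τ (by
    intro y hy k hk
    refine orderOf_dvd_of_compMer_eq hγ (by rwa [map_ne_zero]) ?_ hk
    exact RingHom.congr_fun (compMer_toMer ι N hγN) y) h1
  rw [mul_comm (n : ℤ) k] at h2
  have hn' : (n : ℤ) ≠ 0 := by exact_mod_cast hn0
  have h3 := (mul_dvd_mul_iff_right hn').1 h2
  have h4 := eq_derivAt_zpow hγ hG0 hc hk
  have h5 : derivAt γ τ ^ k = 1 := by
    obtain ⟨j, rfl⟩ := h3
    rw [zpow_mul, zpow_natCast, pow_orderOf_eq_one, one_zpow]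
  exact Units.ext (h4.trans h5)

end Fermat.Agent.TorsCmp
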