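import Fermat.Agent.TorsCmp.Growth
import Fermat.Agent.TorsCmp.Elliptic
import Fermat.Agent.Period.Equivariant

/-!
# Characters of roots are trivial on parabolic elements
-/

set_option autoImplicit false
set_option linter.unusedSectionVars false

noncomputable section

open UpperHalfPlane Function ModularCurve Filter ModularForm AlgebraicCurve WithZero
  CongruenceSubgroup
open scoped Manifold MatrixGroups Topology ModularForm

namespace Fermat.Agent.TorsCmp

open Fermat.Agent.X0Places Fermat.Agent.FunField Fermat.Agent.FunField.PlaceLemmas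
open Function.Periodic (qParam)

theorem compMer_one (y : Mer) : compMer 1 y = y := by
  have h1 : compMer 1 = RingHom.id Mer := by
    apply IsFractionRing.ringHom_ext (A := Holo)
    intro f
    rw [compMer_algebraMap, RingHom.id_apply]
    congr 1
    apply Subtype.ext
    funext τ
    rw [compHolo_apply, one_smul]
  rw [h1, RingHom.id_apply]

theorem compMer_neg_one (y : Mer) : compMer (-1) y = y := by
  have h1 : compMer (-1) = RingHom.id Mer := by
    apply IsFractionRing.ringHom_ext (A := Holo)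
    intro f
    rw [compMer_algebraMap, RingHom.id_apply]
    congr 1
    apply Subtype.ext
    funext τ
    rw [compHolo_apply, ModularGroup.SL_neg_smul, one_smul]
  rw [h1, RingHom.id_apply]

theorem neg_one_mem_Gamma0 (N : ℕ) : (-1 : SL(2, ℤ)) ∈ Gamma0 N := by
  rw [Gamma0_mem]
  simp

theorem zetaN_mul_pow (N n : ℕ) [NeZero N] [NeZero n] : zetaN (N * n) ^ n = zetaN N := by
  apply Units.ext
  rw [Units.val_pow_eq_pow_val, zetaN, zetaN, Units.val_mk0, Units.val_mk0, ← Complex.exp_nat_mul]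
  congr 1
  have h1 : (N : ℂ) ≠ 0 := by exact_mod_cast NeZero.ne N
  have h2 : (n : ℂ) ≠ 0 := by exact_mod_cast NeZero.ne n
  push_cast
  field_simp

variable {L : Type*} [Field L] [Algebra ℚ L] (ι : L →+* ℂ) (N : ℕ) [NeZero N]

/-- reduction to holomorphic roots -/
theorem exists_holo {n : ℕ} (hn0 : n ≠ 0) {x : FF L N} (hx : x ≠ 0) [IsFF L (FF L N)]
    (hn : ∀ v : Place L (FF L N), (n : ℤ) ∣ v.ord x) {G : Mer} (hG : G ^ n = toMer ι N x) :
    ∃ (b a : AF ι N) (H : Holo), algebraMap (AF ι N) (FF L N) b ≠ 0 ∧ H ≠ 0 ∧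
      algebraMap (AF ι N) (FF L N) a = x * algebraMap (AF ι N) (FF L N) b ^ n ∧
      algebraMap Holo Mer H = G * toMer ι N (algebraMap (AF ι N) (FF L N) b) ∧
      H ^ n = anHom ι N (afToAnR ι N a) := by
  obtain ⟨a, b, hb, rfl⟩ := IsFractionRing.div_surjective (A := AF ι N) x
  have hb0 : algebraMap (AF ι N) (FF L N) b ≠ 0 := by
    rw [map_ne_zero_iff _ (IsFractionRing.injective _ _)]
    exact nonZeroDivisors.ne_zero hb
  set c : AF ι N := a * b ^ (n - 1) with hc
  have hc1 : algebraMap (AF ι N) (FF L N) c =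
      algebraMap (AF ι N) (FF L N) a / algebraMap (AF ι N) (FF L N) b *
      algebraMap (AF ι N) (FF L N) b ^ n := by
    obtain ⟨m, rfl⟩ := Nat.exists_eq_succ_of_ne_zero hn0
    rw [hc, map_mul, map_pow, Nat.succ_sub_one, pow_succ]
    field_simp
  have hc0 : algebraMap (AF ι N) (FF L N) c ≠ 0 := by
    rw [hc1]
    exact mul_ne_zero hx (pow_ne_zero _ hb0)
  have hcn : ∀ v : Place L (FF L N), (n : ℤ) ∣ v.ord (algebraMap (AF ι N) (FF L N) c) := by
    intro v
    rw [hc1, v.ord_mul hx (pow_ne_zero _ hb0), ord_pow]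
    exact dvd_add (hn v) (dvd_mul_right _ _)
  set φ : Holo := anHom ι N (afToAnR ι N c) with hφ
  have hφc : toMer ι N (algebraMap (AF ι N) (FF L N) c) = algebraMap Holo Mer φ := toMer_coe c
  have hφ0 : φ ≠ 0 := by
    intro h
    rw [h, map_zero, map_eq_zero] at hφc
    exact hc0 hφc
  obtain ⟨H, hH⟩ := exists_root_holo hφ0 hn0 (by
    intro τ
    have h1 := dvd_valMer ι N (e := 1) hc0 hcn τ (fun _ _ k _ => one_dvd k)
      (k := ((ordH τ (φ : ℍ → ℂ)).toNat : ℤ)) (by
        rw [hφc, valMer_algebraMap, valHolo_apply τ hφ0])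
    rw [one_mul] at h1
    exact_mod_cast h1)
  have hH0 : H ≠ 0 := by
    rintro rfl
    rw [zero_pow hn0] at hH
    exact hφ0 hH.symm
  have hH0' : algebraMap Holo Mer H ≠ 0 := by
    rwa [map_ne_zero_iff _ (IsFractionRing.injective Holo Mer)]
  set y := G * toMer ι N (algebraMap (AF ι N) (FF L N) b) with hy
  have h1 : (y / algebraMap Holo Mer H) ^ n = 1 := by
    rw [div_pow, ← map_pow, hH, ← hφc, hc1, hy, mul_pow, hG, map_mul, map_pow, div_self]
    exact mul_ne_zero (by rwa [map_ne_zero]) (pow_ne_zero _ (by rwa [map_ne_zero]))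
  obtain ⟨z, hz, hz'⟩ := exists_cM_of_pow_eq_one hn0 h1
  rw [div_eq_iff hH0'] at hz'
  refine ⟨b, c, constHolo z * H, hb0, ?_, hc1, ?_, ?_⟩
  · refine mul_ne_zero ?_ hH0
    intro h
    exact z.ne_zero (congrFun (congrArg Subtype.val h) UpperHalfPlane.I)
  · rw [← hy, map_mul, hz']
    rfl
  · rw [mul_pow, hH]
    have h2 : constHolo z ^ n = 1 := by
      apply Subtype.ext
      funext τ
      show (z : ℂ) ^ n = 1
      rw [← Units.val_pow_eq_pow_val, hz, Units.val_one]
    rw [h2, one_mul]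

/-- The character of a root is trivial on elements conjugate to a translation. -/
theorem char_conj_T [IsFF L (FF L N)] {n : ℕ} (hn0 : n ≠ 0) {x : FF L N} (hx : x ≠ 0)
    (hn : ∀ v : Place L (FF L N), (n : ℤ) ∣ v.ord x) {G : Mer} (hG : G ^ n = toMer ι N x)
    {χ : Gamma0 N →* ℂˣ} (hχn : ∀ γ, χ γ ^ n = 1)
    (hχ : ∀ γ : Gamma0 N, compMer (γ : SL(2, ℤ)) G = cM (χ γ) * G) (E : Gamma0 N)
    (δ : SL(2, ℤ)) (m : ℤ) (hE : (E : SL(2, ℤ)) = δ * ModularGroup.T ^ m * δ⁻¹) : χ E = 1 := by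
  have : NeZero n := ⟨hn0⟩
  obtain ⟨b, a, H, hb, hH0, ha, hHG, hHn⟩ := exists_holo ι N hn0 hx hn hG
  -- transformation of `H`
  have hHχ : ∀ γ : Gamma0 N, ∀ τ, (H : ℍ → ℂ) ((γ : SL(2, ℤ)) • τ) = χ γ * (H : ℍ → ℂ) τ := by
    intro γ τ
    have h1 : compMer (γ : SL(2, ℤ)) (algebraMap Holo Mer H) = cM (χ γ) * algebraMap Holo Mer H := by
      rw [hHG, map_mul, hχ γ]
      have h2 : compMer (γ : SL(2, ℤ)) (toMer ι N (algebraMap (AF ι N) (FF L N) b)) = _ :=
        RingHom.congr_fun (compMer_toMer ι N γ.2) _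
      rw [h2]
      ring
    rw [compMer_algebraMap, cM_apply, ← map_mul] at h1
    exact congrFun (congrArg Subtype.val (IsFractionRing.injective Holo Mer h1)) τ
  have hφ : ∀ τ, (H : ℍ → ℂ) τ ^ n = anFn (afToAnR ι N a) τ := fun τ =>
    congrFun (congrArg Subtype.val hHn) τ
  set X := cuspEmb ι N δ (a : FF L N) with hX
  have hXL : HasLaurent N (fun τ => anFn (afToAnR ι N a) (δ • τ)) X := by
    rw [hX, cuspEmb_coe]
    exact hasLaurent_anExp δ (afToAnR ι N a)
  -- expansion of `H ∘ δ`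
  obtain ⟨y, hy⟩ := exists_hasLaurent_root (N := N) (k := n) hn0 (mdiff_comp_smul H.2 δ)
    (fun τ => hφ (δ • τ)) hXL (fun τ => by
      set E' : Gamma0 N := ⟨δ * ModularGroup.T ^ N * δ⁻¹, conj_T_pow_mem N δ⟩ with hE'
      have h1 := hHχ (E' ^ n) (δ • τ)
      rw [map_pow, hχn, Units.val_one, one_mul] at h1
      rw [← h1, Subgroup.coe_pow, hE', conj_pow, ← pow_mul, mul_smul, mul_smul, inv_smul_smul])
  have hpos : (0 : ℝ) < ((N * n : ℕ) : ℝ) := natCast_pos (N * n)
  have hyn : y ^ n = qExpand ℂ n X := by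
    have h1 : HasLaurent (N * n : ℕ) ((fun τ => (H : ℍ → ℂ) (δ • τ)) ^ n) (y ^ n) := by
      have hpow : ∀ k : ℕ, HasLaurent (N * n : ℕ) ((fun τ => (H : ℍ → ℂ) (δ • τ)) ^ k) (y ^ k) := by
        intro k
        induction k with
        | zero => rw [pow_zero, pow_zero]; exact HasLaurent.const 1
        | succ k ih => rw [pow_succ, pow_succ]; exact ih.mul hy
      exact hpow n
    have h2 := hXL.subst (h' := ((N * n : ℕ) : ℝ)) (id : ℍ → ℍ) 1 n (by
      intro τ
      rw [Units.val_one, one_mul, id]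
      have hN : (N : ℝ) ≠ 0 := by exact_mod_cast NeZero.ne N
      have := qParam_mul_width (h := (N : ℝ)) hN n (τ : ℂ)
      rw [← this]
      congr 2
      push_cast
      ring)
    rw [Fermat.Agent.ModPoly.twist_one] at h2
    have h3 : ((fun τ => (H : ℍ → ℂ) (δ • τ)) ^ n) =
        (fun τ => anFn (afToAnR ι N a) (δ • τ)) ∘ (id : ℍ → ℍ) := by
      funext τ
      exact hφ (δ • τ)
    rw [h3] at h1
    exact h1.unique hpos h2
  have ha0 : (a : FF L N) ≠ 0 := by
    have h1 : (a : FF L N) = x * algebraMap (AF ι N) (FF L N) b ^ n := ha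
    rw [h1]
    exact mul_ne_zero hx (pow_ne_zero _ hb)
  have hX0 : X ≠ 0 := by rw [hX, map_ne_zero]; exact ha0
  have hqX0 : qExpand ℂ n X ≠ 0 := by
    rw [map_ne_zero_iff _ (qExpand_injective n)]; exact hX0
  have hy0 : y ≠ 0 := by
    rintro rfl
    rw [zero_pow hn0] at hyn
    exact hqX0 hyn.symm
  have hord : y.order = X.order := by
    have h1 := congrArg HahnSeries.order hyn
    rw [HahnSeries.order_pow, order_qExpand n X hX0] at h1
    have h2 : (n : ℤ) ≠ 0 := by exact_mod_cast hn0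
    rw [nsmul_eq_mul] at h1
    exact mul_left_cancel₀ h2 h1
  -- twisting
  have htw : Fermat.Agent.ModPoly.twist (zetaN (N * n) ^ m) y = HahnSeries.C (χ E : ℂ) * y := by
    have h1 := hy.subst (h' := ((N * n : ℕ) : ℝ)) (fun τ => ModularGroup.T ^ m • τ)
      (zetaN (N * n) ^ m) 1 (by
        intro τ
        rw [pow_one]
        exact qParam_T_zpow (N * n) m τ)
    rw [qExpand_one_apply] at h1
    have h2 : HasLaurent (N * n : ℕ) ((fun _ => (χ E : ℂ)) * (fun τ => (H : ℍ → ℂ) (δ • τ)))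
        (HahnSeries.C (χ E : ℂ) * y) := (HasLaurent.const _).mul hy
    have h3 : (fun τ => (H : ℍ → ℂ) (δ • τ)) ∘ (fun τ => ModularGroup.T ^ m • τ) =
        ((fun _ => (χ E : ℂ)) * (fun τ => (H : ℍ → ℂ) (δ • τ))) := by
      funext τ
      rw [comp_apply, Pi.mul_apply]
      rw [← hHχ E (δ • τ), hE, mul_smul, mul_smul, inv_smul_smul]
    rw [h3] at h1
    exact h1.unique hpos h2
  have hcoef := congrArg (fun z => z.coeff y.order) htw
  simp only [Fermat.Agent.ModPoly.twist_coeff] at hcoef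
  rw [HahnSeries.C_mul_eq_smul, HahnSeries.coeff_smul, smul_eq_mul] at hcoef
  have hlead := HahnSeries.coeff_order_eq_zero.not.2 hy0
  have hval := mul_right_cancel₀ hlead hcoef
  -- divisibility
  have hdvd : (orderOf (zetaN N ^ m) : ℤ) * n ∣ X.order := by
    refine dvd_of_dvd_ord (L := L) (valLaur.comap (cuspEmb (L := L) ι N δ)) (fun c => ?_) ?_ ha0 ?_
      (by rw [Valuation.comap_apply, ← hX, valLaur_apply hX0])
    · rw [Valuation.comap_apply, cuspEmb_algebraMap]
      rcases eq_or_ne (ι c) 0 with h | h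
      · rw [h]; simp
      · rw [valLaur_apply (by simpa using h), HahnSeries.C_apply, HahnSeries.order_single h]
        simp
    · intro z hz k hk
      have hz0 : cuspEmb ι N δ z ≠ 0 := by rwa [map_ne_zero]
      rw [Valuation.comap_apply, valLaur_apply hz0, exp_inj, neg_inj] at hk
      rw [← hk]
      apply dvd_order_of_twist_eq hz0
      rw [← cuspEmb_mul_T_zpow]
      have h1 : δ * ModularGroup.T ^ m = (E : SL(2, ℤ)) * δ := by rw [hE]; group
      rw [h1, cuspEmb_mul ι N E.2]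
    · intro v
      have h1 : (a : FF L N) = x * algebraMap (AF ι N) (FF L N) b ^ n := ha
      rw [h1, v.ord_mul hx (pow_ne_zero _ hb), ord_pow]
      exact dvd_add (hn v) (dvd_mul_right _ _)
  obtain ⟨j, hj⟩ := hdvd
  have hfin : (zetaN (N * n) ^ m) ^ y.order = 1 := by
    have h1 : (zetaN (N * n) ^ m) ^ ((orderOf (zetaN N ^ m) : ℤ) * n * j) =
        (((zetaN (N * n) ^ n) ^ m) ^ (orderOf (zetaN N ^ m))) ^ j := by
      simp only [← zpow_natCast, ← zpow_mul]
      congr 1
      ring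
    rw [hord, hj, h1, zetaN_mul_pow, pow_orderOf_eq_one, one_zpow]
  rw [hfin] at hval
  exact (Units.ext hval).symm

/-- The character of a root is trivial on parabolic elements. -/
theorem char_parabolic [IsFF L (FF L N)] {n : ℕ} (hn0 : n ≠ 0) {x : FF L N} (hx : x ≠ 0)
    (hn : ∀ v : Place L (FF L N), (n : ℤ) ∣ v.ord x) {G : Mer} (hG : G ^ n = toMer ι N x)
    {χ : Gamma0 N →* ℂˣ} (hχn : ∀ γ, χ γ ^ n = 1)
    (hχ : ∀ γ : Gamma0 N, compMer (γ : SL(2, ℤ)) G = cM (χ γ) * G) (E : Gamma0 N)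
    (hE : ((E : SL(2, ℤ)) : Matrix (Fin 2) (Fin 2) ℤ).trace ^ 2 = 4) : χ E = 1 := by
  have hG0 : G ≠ 0 := by
    rintro rfl
    rw [zero_pow hn0] at hG
    have : toMer ι N x ≠ 0 := by rwa [map_ne_zero]
    exact this hG.symm
  obtain ⟨δ, hδ⟩ := Fermat.Agent.Period.exists_conj_upper (E : SL(2, ℤ)) hE
  set M := δ⁻¹ * (E : SL(2, ℤ)) * δ with hM
  have hdet : M 0 0 * M 1 1 = 1 := by
    have := Fermat.Agent.JInv.det_eq M
    rw [hδ] at this
    simpa using this
  rcases Int.eq_one_or_neg_one_of_mul_eq_one hdet with h | h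
  · have h1 : M 1 1 = 1 := by rw [h, one_mul] at hdet; exact hdet
    have h2 : M = ModularGroup.T ^ (M 0 1) := by
      ext i j
      rw [ModularGroup.coe_T_zpow]
      fin_cases i <;> fin_cases j <;> simp [h, h1, hδ]
    apply char_conj_T ι N hn0 hx hn hG hχn hχ E δ (M 0 1)
    rw [← h2, hM]
    group
  · have h1 : M 1 1 = -1 := by rw [h] at hdet; linarith
    obtain ⟨t, ht⟩ : ∃ t, t = M 0 1 := ⟨_, rfl⟩
    have h2 : M = -ModularGroup.T ^ (-t) := by
      ext i j
      rw [Matrix.SpecialLinearGroup.coe_neg, ModularGroup.coe_T_zpow]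
      fin_cases i <;> fin_cases j <;> simp [h, h1, hδ, ht]
    have hneg : χ ⟨-1, neg_one_mem_Gamma0 N⟩ = 1 := by
      have h3 := hχ ⟨-1, neg_one_mem_Gamma0 N⟩
      have h4 : compMer (-1) G = _ := h3
      rw [compMer_neg_one] at h4
      have h5 : (1 : Mer) * G = cM (χ ⟨-1, neg_one_mem_Gamma0 N⟩) * G := by rw [one_mul]; exact h4
      have h6 := mul_right_cancel₀ hG0 h5
      rw [← map_one cM] at h6
      exact Units.ext (cM.injective h6).symm
    have h3 := char_conj_T ι N hn0 hx hn hG hχn hχ (⟨-1, neg_one_mem_Gamma0 N⟩ * E) δ (-t) (by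
      have h4 : (E : SL(2, ℤ)) = δ * M * δ⁻¹ := by rw [hM]; group
      rw [Subgroup.coe_mul, h4, h2]
      show -1 * (δ * -ModularGroup.T ^ (-t) * δ⁻¹) = _
      rw [neg_mul, one_mul, mul_neg, neg_mul, neg_neg])
    rw [map_mul, hneg, one_mul] at h3
    exact h3

end Fermat.Agent.TorsCmp
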