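import Fermat.Agent.TorsCmp.Root
import Fermat.Agent.X0Places.ModFun

/-!
# Characters attached to roots of modular functions
-/

set_option autoImplicit false
set_option linter.unusedSectionVars false

noncomputable section

open UpperHalfPlane Function ModularCurve Filter ModularForm AlgebraicCurve WithZero
  CongruenceSubgroup
open scoped Manifold MatrixGroups Topology ModularForm

namespace Fermat.Agent.TorsCmp

open Fermat.Agent.X0Places Fermat.Agent.FunField Fermat.Agent.FunField.PlaceLemmas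

/-- constants in the field of meromorphic functions -/
def cM : ℂ →+* Mer := (algebraMap Holo Mer).comp constHom

theorem cM_apply (c : ℂ) : cM c = algebraMap Holo Mer (constHolo c) := rfl

theorem compMer_cM (γ : SL(2, ℤ)) (c : ℂ) : compMer γ (cM c) = cM c := by
  rw [cM_apply, compMer_algebraMap, compHolo_const]

theorem valMer_cM (τ : ℍ) {c : ℂ} (hc : c ≠ 0) : valMer τ (cM c) = 1 := by
  have hne : constHolo c ≠ 0 := by
    intro h
    have := congrFun (congrArg Subtype.val h) τ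
    exact hc this
  rw [cM_apply, valMer_algebraMap, valHolo_apply τ hne]
  have h1 : ordH τ ((constHolo c : Holo) : ℍ → ℂ) = 0 := ordH_const hc τ
  rw [h1]
  simp

theorem exists_cM_of_pow_eq_one {n : ℕ} (hn : n ≠ 0) {y : Mer} (hy : y ^ n = 1) :
    ∃ c : ℂˣ, c ^ n = 1 ∧ y = cM c := by
  have hprim := Complex.isPrimitiveRoot_exp n hn
  have h1 : (Polynomial.X ^ n - 1 : Polynomial ℂ) = _ :=
    Polynomial.X_pow_sub_one_eq_prod (Nat.pos_of_ne_zero hn) hprim
  have h2 := congrArg (Polynomial.eval₂ cM y) h1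
  rw [Polynomial.eval₂_finsetProd, Polynomial.eval₂_sub, Polynomial.eval₂_pow,
    Polynomial.eval₂_X, Polynomial.eval₂_one, hy, sub_self] at h2
  obtain ⟨c, hc, hc'⟩ := Finset.prod_eq_zero_iff.1 h2.symm
  rw [Polynomial.eval₂_sub, Polynomial.eval₂_X, Polynomial.eval₂_C, sub_eq_zero] at hc'
  have hcn : c ^ n = 1 := (Polynomial.mem_nthRootsFinset (Nat.pos_of_ne_zero hn) _).1 hc
  refine ⟨Units.ofPowEqOne c n hcn hn, Units.ext ?_, ?_⟩
  · simp [hcn]
  · simp [hc']

/-- The character of a root. -/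
theorem exists_char (Γ : Subgroup SL(2, ℤ)) {n : ℕ} (hn : n ≠ 0) {G : Mer} (hG : G ≠ 0)
    (hinv : ∀ γ ∈ Γ, compMer γ (G ^ n) = G ^ n) :
    ∃ χ : Γ →* ℂˣ, (∀ γ, χ γ ^ n = 1) ∧ ∀ γ : Γ, compMer (γ : SL(2, ℤ)) G = cM (χ γ) * G := by
  have hex : ∀ γ : Γ, ∃ c : ℂˣ, c ^ n = 1 ∧ compMer (γ : SL(2, ℤ)) G = cM c * G := by
    intro γ
    have h1 : (compMer (γ : SL(2, ℤ)) G / G) ^ n = 1 := by
      rw [div_pow, ← map_pow, hinv γ γ.2, div_self (pow_ne_zero _ hG)]
    obtain ⟨c, hc, hc'⟩ := exists_cM_of_pow_eq_one hn h1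
    exact ⟨c, hc, by rw [← hc', div_mul_cancel₀ _ hG]⟩
  choose c hc hc' using hex
  have huniq : ∀ a b : ℂˣ, cM a * G = cM b * G → a = b := by
    intro a b hab
    have := mul_right_cancel₀ hG hab
    exact Units.ext (cM.injective this)
  refine ⟨⟨⟨c, ?_⟩, ?_⟩, hc, hc'⟩
  · apply huniq
    rw [← hc', Subgroup.coe_one]
    have h1 : compMer 1 = RingHom.id Mer := by
      apply IsFractionRing.ringHom_ext (A := Holo)
      intro f
      rw [compMer_algebraMap, RingHom.id_apply]
      congr 1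
      apply Subtype.ext
      funext τ
      rw [compHolo_apply, one_smul]
    rw [h1, Units.val_one, map_one, one_mul]
    rfl
  · intro γ δ
    apply huniq
    show cM (c (γ * δ)) * G = cM ((c γ * c δ : ℂˣ) : ℂ) * G
    rw [← hc', Subgroup.coe_mul, ← compMer_mul, hc' γ, map_mul, compMer_cM, hc' δ, Units.val_mul,
      map_mul]
    ring

/-- A valuation on a function field, trivial on constants, whose values are all divisible by `e`:
the values at functions with divisor divisible by `n` are divisible by `e n`. -/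
theorem dvd_of_dvd_ord {L F : Type*} [Field L] [Field F] [Algebra L F] [IsFF L F]
    (w : Valuation F ℤᵐ⁰) (hL : ∀ c : L, w (algebraMap L F c) ≤ 1) {e n : ℤ}
    (he : ∀ y : F, y ≠ 0 → ∀ k : ℤ, w y = exp (-k) → e ∣ k) {x : F} (hx : x ≠ 0)
    (hn : ∀ v : Place L F, n ∣ v.ord x) {k : ℤ} (hk : w x = exp (-k)) : e * n ∣ k := by
  by_cases hne : ∃ y, 1 < w y
  · obtain ⟨i, hi, h⟩ := exists_ramification w hL hne
    obtain ⟨π, hπ0, hπ⟩ := exists_ord_eq_one (placeOfVal w hL hne)
    have h1 := h π hπ0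
    rw [hπ, mul_one] at h1
    have h2 := he π hπ0 _ h1
    rw [h x hx, exp_inj, neg_inj] at hk
    rw [← hk]
    exact mul_dvd_mul h2 (hn _)
  · push Not at hne
    have h1 : w x = 1 := by
      apply le_antisymm (hne x)
      have h2 := hne x⁻¹
      rwa [map_inv₀, inv_le_one₀ (zero_lt_iff.2 ((Valuation.ne_zero_iff _).2 hx))] at h2
    rw [h1, ← exp_zero, exp_inj] at hk
    have h3 : k = 0 := by omega
    rw [h3]
    exact dvd_zero _

variable {L : Type*} [Field L] [Algebra ℚ L] (ι : L →+* ℂ) (N : ℕ) [NeZero N]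

/-- the orders of a modular function with divisor divisible by `n` are divisible by `n` -/
theorem dvd_valMer [IsFF L (FF L N)] {e n : ℤ} {x : FF L N} (hx : x ≠ 0)
    (hn : ∀ v : Place L (FF L N), n ∣ v.ord x) (τ : ℍ)
    (he : ∀ y : FF L N, y ≠ 0 → ∀ k : ℤ, valMer τ (toMer ι N y) = exp (-k) → e ∣ k) {k : ℤ}
    (hk : valMer τ (toMer ι N x) = exp (-k)) : e * n ∣ k := by
  refine dvd_of_dvd_ord ((valMer τ).comap (toMer ι N)) (fun c => ?_) he hx hn hk
  rw [Valuation.comap_apply, toMer_algebraMap, valMer_algebraMap]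
  exact valHolo_le_one _ _

theorem exists_val_eq_exp {K : Type*} [Field K] (w : Valuation K ℤᵐ⁰) {y : K} (hy : y ≠ 0) :
    ∃ k : ℤ, w y = exp (-k) := by
  have h := (Valuation.ne_zero_iff w).2 hy
  refine ⟨-(log (w y)), ?_⟩
  rw [neg_neg, exp_log h]

/-- Existence of roots: a modular function whose divisor is divisible by `n` has an `n`-th root
in the field of meromorphic functions. -/
theorem exists_root_mer [IsFF L (FF L N)] {n : ℕ} (hn0 : n ≠ 0) {x : FF L N} (hx : x ≠ 0)
    (hn : ∀ v : Place L (FF L N), (n : ℤ) ∣ v.ord x) : ∃ G : Mer, G ^ n = toMer ι N x := by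
  obtain ⟨a, b, hb, rfl⟩ := IsFractionRing.div_surjective (A := AF ι N) x
  have hb0 : algebraMap (AF ι N) (FF L N) b ≠ 0 := by
    rw [map_ne_zero_iff _ (IsFractionRing.injective _ _)]
    exact nonZeroDivisors.ne_zero hb
  have ha0 : algebraMap (AF ι N) (FF L N) a ≠ 0 := by
    intro h
    rw [h, zero_div] at hx
    exact hx rfl
  set c : AF ι N := a * b ^ (n - 1) with hc
  have hc1 : algebraMap (AF ι N) (FF L N) c =
      algebraMap (AF ι N) (FF L N) a / algebraMap (AF ι N) (FF L N) b *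
      algebraMap (AF ι N) (FF L N) b ^ n := by
    obtain ⟨m, rfl⟩ := Nat.exists_eq_succ_of_ne_zero hn0
    rw [hc, map_mul, map_pow, Nat.succ_sub_one, pow_succ]
    field_simp
  have hc0 : algebraMap (AF ι N) (FF L N) c ≠ 0 := by
    rw [hc1]
    exact mul_ne_zero hx (pow_ne_zero _ hb0)
  have hcn : ∀ v : Place L (FF L N), (n : ℤ) ∣ v.ord (algebraMap (AF ι N) (FF L N) c) := by
    intro v
    rw [hc1, v.ord_mul hx (pow_ne_zero _ hb0), ord_pow]
    exact dvd_add (hn v) (dvd_mul_right _ _)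
  set φ : Holo := anHom ι N (afToAnR ι N c) with hφ
  have hφc : toMer ι N (algebraMap (AF ι N) (FF L N) c) = algebraMap Holo Mer φ := toMer_coe c
  have hφ0 : φ ≠ 0 := by
    intro h
    rw [h, map_zero, map_eq_zero] at hφc
    exact hc0 hφc
  obtain ⟨G, hG⟩ := exists_root_holo hφ0 hn0 (by
    intro τ
    have h1 := dvd_valMer ι N (e := 1) hc0 hcn τ (fun _ _ k _ => one_dvd k)
      (k := ((ordH τ (φ : ℍ → ℂ)).toNat : ℤ)) (by
        rw [hφc, valMer_algebraMap, valHolo_apply τ hφ0])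
    rw [one_mul] at h1
    exact_mod_cast h1)
  refine ⟨algebraMap Holo Mer G / toMer ι N (algebraMap (AF ι N) (FF L N) b), ?_⟩
  have hb1 : toMer ι N (algebraMap (AF ι N) (FF L N) b) ≠ 0 := by rwa [map_ne_zero]
  rw [div_pow, ← map_pow, hG, ← hφc, hc1, map_mul, map_pow, mul_div_assoc,
    div_self (pow_ne_zero _ hb1), mul_one]

end Fermat.Agent.TorsCmp
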