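import Fermat.Agent.TorsCmp.GLAct
import Fermat.Agent.HeckeRed.Degrees
import Fermat.Agent.AtkinLehner.Norm
import Fermat.Agent.X0Places.Degree

/-!
# Degeneracy maps as maps of meromorphic functions
-/

set_option autoImplicit false
set_option linter.unusedSectionVars false

noncomputable section

open UpperHalfPlane Function ModularCurve Filter ModularForm AlgebraicCurve WithZero
  CongruenceSubgroup
open scoped Manifold MatrixGroups Topology ModularForm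

namespace Fermat.Agent.TorsCmp

open Fermat.Agent.X0Places Fermat.Agent.FunField Fermat.Agent.FunField.PlaceLemmas
open Matrix.SpecialLinearGroup (mapGL)
open Fermat.Agent.HeckeHom (HData)

/-! ### double coset operators -/

section Double

variable {Γ Γ' : Subgroup SL(2, ℤ)} (Γ₀ : Subgroup SL(2, ℤ))

/-- representatives of right cosets -/
def rep (c : Γ' ⧸ Γ₀.subgroupOf Γ') : Γ' := (Quotient.out c)⁻¹

theorem mk_rep_inv (c : Γ' ⧸ Γ₀.subgroupOf Γ') :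
    (((rep Γ₀ c)⁻¹ : Γ') : Γ' ⧸ Γ₀.subgroupOf Γ') = c := by
  rw [rep, inv_inv]
  exact Quotient.out_eq' c

theorem rep_mul_inv_mem_iff (c c' : Γ' ⧸ Γ₀.subgroupOf Γ') :
    ((rep Γ₀ c * (rep Γ₀ c')⁻¹ : Γ') : SL(2, ℤ)) ∈ Γ₀ ↔ c = c' := by
  rw [← Subgroup.mem_subgroupOf]
  have h1 : (((rep Γ₀ c)⁻¹ : Γ') : Γ' ⧸ Γ₀.subgroupOf Γ') =
      (((rep Γ₀ c')⁻¹ : Γ') : Γ' ⧸ Γ₀.subgroupOf Γ') ↔
      rep Γ₀ c * (rep Γ₀ c')⁻¹ ∈ Γ₀.subgroupOf Γ' := by
    rw [QuotientGroup.eq, inv_inv]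
  rw [mk_rep_inv, mk_rep_inv] at h1
  exact h1.symm

theorem rep_mul (c : Γ' ⧸ Γ₀.subgroupOf Γ') (γ : Γ') :
    ((rep Γ₀ c * γ * (rep Γ₀ (γ⁻¹ • c))⁻¹ : Γ') : SL(2, ℤ)) ∈ Γ₀ := by
  rw [← Subgroup.mem_subgroupOf]
  have h1 : (((rep Γ₀ c * γ)⁻¹ : Γ') : Γ' ⧸ Γ₀.subgroupOf Γ') =
      (((rep Γ₀ (γ⁻¹ • c))⁻¹ : Γ') : Γ' ⧸ Γ₀.subgroupOf Γ') := by
    rw [mk_rep_inv, mul_inv_rev]
    conv_rhs => rw [← mk_rep_inv Γ₀ c]
    rfl
  rw [QuotientGroup.eq, inv_inv] at h1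
  exact h1

/-- The Hecke operator attached to `g` and the subgroup `Γ₀ = Γ' ∩ g⁻¹ Γ g`. -/
def doubleData [Finite (Γ' ⧸ Γ₀.subgroupOf Γ')] (g : GL (Fin 2) ℝ)
    (h1 : ∀ ε ∈ Γ₀, ∃ δ ∈ Γ, g * mapGL ℝ ε = mapGL ℝ δ * g)
    (h2 : ∀ δ ∈ Γ, ∀ ε ∈ Γ', g * mapGL ℝ ε = mapGL ℝ δ * g → ε ∈ Γ₀) : HData Γ Γ' where
  X := Γ' ⧸ Γ₀.subgroupOf Γ'
  fin := Fintype.ofFinite _
  α c := g * mapGL ℝ ((rep Γ₀ c : Γ') : SL(2, ℤ))
  ex γ c := by
    obtain ⟨δ, hδ, h⟩ := h1 _ (rep_mul Γ₀ c γ)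
    refine ⟨γ⁻¹ • c, ⟨δ, hδ⟩, ?_⟩
    rw [← mul_assoc, ← h, mul_assoc, mul_assoc, ← map_mul, ← map_mul, ← Subgroup.coe_mul,
      ← Subgroup.coe_mul, inv_mul_cancel_right]
  uniq δ c c' h := by
    rw [← rep_mul_inv_mem_iff Γ₀]
    apply h2 δ δ.2 _ (SetLike.coe_mem _)
    rw [Subgroup.coe_mul, map_mul, ← mul_assoc, h, mul_assoc, mul_assoc, ← map_mul,
      ← Subgroup.coe_mul, mul_inv_cancel, Subgroup.coe_one, map_one, mul_one]

end Double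

/-! ### generators -/

variable {L : Type*} [Field L] [Algebra ℚ L]

variable (L) in
/-- the function `j(dτ)` -/
def jdF (N d : ℕ) [NeZero d] (hd : d ∣ N) : FF L N :=
  ⟨coeffEmb L (qExpand ℚ d jq), coeffEmb_mem_laurentBaseChange L (jqd_mem_full N hd)⟩

/-- homomorphisms from the function field agreeing on constants and on the `j(dτ)` are equal. -/
theorem ff_ringHom_ext_gen {N : ℕ} {R : Type*} [Field R] {φ ψ : FF L N →+* R}
    (hc : ∀ c : L, φ (algebraMap L (FF L N) c) = ψ (algebraMap L (FF L N) c))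
    (hj : ∀ (d : ℕ) [NeZero d] (hd : d ∣ N), φ (jdF L N d hd) = ψ (jdF L N d hd)) : φ = ψ := by
  have h1 : ∀ x : LaurentSeries L, x ∈ Subfield.closure
      (Set.range (algebraMap L (LaurentSeries L)) ∪ coeffEmb L '' divisorExpansions N) →
      ∀ hx : x ∈ FF L N, φ ⟨x, hx⟩ = ψ ⟨x, hx⟩ := by
    intro x hx
    have hle : Subfield.closure
        (Set.range (algebraMap L (LaurentSeries L)) ∪ coeffEmb L '' divisorExpansions N) ≤
        ((φ.eqLocusField ψ).map (FF L N).toSubfield.subtype) := by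
      rw [Subfield.closure_le]
      rintro _ (⟨c, rfl⟩ | ⟨_, ⟨d, hd, hdN, rfl⟩, rfl⟩)
      · exact ⟨algebraMap L (FF L N) c, hc c, rfl⟩
      · exact ⟨jdF L N d hdN, hj d hdN, rfl⟩
    intro hx'
    obtain ⟨y, hy, hyx⟩ := hle hx
    have h2 : (⟨x, hx'⟩ : FF L N) = y := Subtype.ext hyx.symm
    rw [h2]
    exact hy
  ext x
  exact h1 x (FF_le_closure L N x.2) x.2

variable (ι : L →+* ℂ)

theorem toMer_jdF (N d : ℕ) [NeZero N] [NeZero d] (hd : d ∣ N) :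
    toMer ι N (jdF L N d hd) = algebraMap Holo Mer
      ⟨jd d (Nat.pos_of_ne_zero (NeZero.ne d)), mdiff_jd d _⟩ := by
  apply toMer_of_mem
  · exact isAn_jd d _ hd
  · show HasLaurent 1 _ (coeffMap ι (coeffEmb L (qExpand ℚ d jq)))
    rw [coeffMap_coeffEmb_jd]
    exact hasLaurent_jd_one d _

theorem heckeDiag_smul (ℓ : ℕ) (hℓ : 0 < ℓ) (τ : ℍ) : heckeDiagMatrix ℓ • τ = scaleH ℓ hℓ τ := by
  apply UpperHalfPlane.ext
  rw [coe_heckeDiagMatrix_smul hℓ.ne', coe_scaleH]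

variable (N ℓ : ℕ) [NeZero N] [NeZero ℓ]

/-- the inclusion `F_N ⊆ F_{Nℓ}` -/
theorem toMer_alpha (x : FF L N) :
    toMer ι (N * ℓ) (heckeAlphaBar L N ℓ x) = toMer ι N x := by
  have h : (toMer ι (N * ℓ)).comp (heckeAlphaBar L N ℓ).toRingHom = toMer ι N := by
    apply ff_ringHom_ext_gen
    · intro c
      show toMer ι (N * ℓ) (heckeAlphaBar L N ℓ (algebraMap L (FF L N) c)) = _
      rw [AlgHom.commutes, toMer_algebraMap, toMer_algebraMap]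
    · intro d _ hd
      show toMer ι (N * ℓ) (heckeAlphaBar L N ℓ (jdF L N d hd)) = _
      have h1 : heckeAlphaBar L N ℓ (jdF L N d hd) = jdF L (N * ℓ) d (hd.mul_right ℓ) := by
        apply Subtype.ext
        rw [coe_heckeAlphaBar]
        rfl
      rw [h1, toMer_jdF, toMer_jdF]
  exact RingHom.congr_fun h x

omit [NeZero N] in
theorem beta_jdF (d : ℕ) [NeZero d] (hd : d ∣ N) [NeZero (ℓ * d)] (hdvd : ℓ * d ∣ N * ℓ) :
    heckeBetaBar L N ℓ (jdF L N d hd) = jdF L (N * ℓ) (ℓ * d) hdvd := by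
  apply Subtype.ext
  rw [coe_heckeBetaBar]
  show qExpand L ℓ (coeffEmb L (qExpand ℚ d jq)) = coeffEmb L (qExpand ℚ (ℓ * d) jq)
  rw [coeffEmb, ← coeffMap_qExpand, qExpand_qExpand]

omit [NeZero N] in
theorem jd_mul (d : ℕ) (hd : 0 < d) (hℓ : 0 < ℓ) (h : 0 < ℓ * d) (τ : ℍ) :
    jd (ℓ * d) h τ = jd d hd (heckeDiagMatrix ℓ • τ) := by
  rw [heckeDiag_smul ℓ hℓ, jd, jd]
  refine congrArg _ (UpperHalfPlane.ext ?_)
  rw [coe_scaleH, coe_scaleH, coe_scaleH]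
  push_cast
  ring

/-- the map `f(τ) ↦ f(ℓτ)` -/
theorem toMer_beta (x : FF L N) :
    toMer ι (N * ℓ) (heckeBetaBar L N ℓ x) = compG (heckeDiagMatrix ℓ) (toMer ι N x) := by
  have hℓ : 0 < ℓ := Nat.pos_of_ne_zero (NeZero.ne ℓ)
  have h : (toMer ι (N * ℓ)).comp (heckeBetaBar L N ℓ).toRingHom =
      (compG (heckeDiagMatrix ℓ)).comp (toMer ι N) := by
    apply ff_ringHom_ext_gen
    · intro c
      show toMer ι (N * ℓ) (heckeBetaBar L N ℓ (algebraMap L (FF L N) c)) =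
        compG _ (toMer ι N (algebraMap L (FF L N) c))
      rw [AlgHom.commutes, toMer_algebraMap, toMer_algebraMap]
      exact (compG_cM _ _).symm
    · intro d _ hd
      show toMer ι (N * ℓ) (heckeBetaBar L N ℓ (jdF L N d hd)) =
        compG _ (toMer ι N (jdF L N d hd))
      have : NeZero (ℓ * d) := ⟨Nat.mul_ne_zero (NeZero.ne ℓ) (NeZero.ne d)⟩
      have hdvd : ℓ * d ∣ N * ℓ := by rw [mul_comm]; exact Nat.mul_dvd_mul_right hd ℓ
      rw [beta_jdF N ℓ d hd hdvd, toMer_jdF, toMer_jdF,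
        compG_algebraMap _ (det_heckeDiagMatrix_pos ℓ)]
      refine congrArg _ (Subtype.ext ?_)
      funext τ
      rw [glHolo_apply]
      exact jd_mul ℓ d _ hℓ _ τ
  exact RingHom.congr_fun h x

end Fermat.Agent.TorsCmp
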