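import Fermat.Agent.TorsCmp.Rel
import Fermat.Agent.Tate.Abs

/-!
# The comparison map `J₀(N)[n] → Hom(Γ₀(N), ℤ/n)`
-/

set_option autoImplicit false
set_option linter.unusedSectionVars false

noncomputable section

open UpperHalfPlane Function ModularCurve Filter ModularForm AlgebraicCurve WithZero
  CongruenceSubgroup
open scoped Manifold MatrixGroups Topology ModularForm

namespace Fermat.Agent.TorsCmp

open Fermat.Agent.X0Places Fermat.Agent.FunField Fermat.Agent.FunField.PlaceLemmas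
open Fermat.Agent.TorsInj (pic0_mk_eq_zero_iff)

variable {L : Type*} [Field L] [Algebra ℚ L] [IsAlgClosed L] (ι : L →+* ℂ) (N : ℕ) [NeZero N]

/-- `χ` is the character of the class `z` -/
def IsCharP (n : ℕ) (z : Pic0 L (FF L N)) (χ : Gamma0 N →* ℂˣ) : Prop :=
  ∃ D : Divisor.degZero (K := L) (F := FF L N), Pic0.mk D = z ∧
    IsChar ι N n (D : Divisor L (FF L N)) χ

variable {ι N}

theorem exists_isCharP {n : ℕ} (hn : n ≠ 0) {z : Pic0 L (FF L N)} (hz : n • z = 0) :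
    ∃ χ, IsCharP ι N n z χ := by
  obtain ⟨D, rfl⟩ := Pic0.mk_surjective z
  have h1 : Divisor.IsPrincipal (((n • D : Divisor.degZero (K := L) (F := FF L N)) :
      Divisor L (FF L N))) := by
    rw [← pic0_mk_eq_zero_iff]
    exact hz
  obtain ⟨χ, hχ⟩ := exists_isChar (ι := ι) hn (D := (D : Divisor L (FF L N))) h1
  exact ⟨χ, D, rfl, hχ⟩

theorem isPrincipal_sub_of_mk_eq {D E : Divisor.degZero (K := L) (F := FF L N)}
    (h : Pic0.mk D = Pic0.mk E) :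
    Divisor.IsPrincipal ((D : Divisor L (FF L N)) - (E : Divisor L (FF L N))) := by
  have h1 : Pic0.mk (D - E) = 0 := by
    have h2 : Pic0.mk (D - E) = Pic0.mk D - Pic0.mk E := rfl
    rw [h2, h, sub_self]
  exact (pic0_mk_eq_zero_iff _).1 h1

theorem IsCharP.unique {n : ℕ} (hn : n ≠ 0) {z : Pic0 L (FF L N)} {χ ψ : Gamma0 N →* ℂˣ}
    (h : IsCharP ι N n z χ) (h' : IsCharP ι N n z ψ) : χ = ψ := by
  obtain ⟨D, hD, hχ⟩ := h
  obtain ⟨E, hE, hψ⟩ := h'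
  exact hχ.unique hn hψ (isPrincipal_sub_of_mk_eq (hD.trans hE.symm))

theorem IsCharP.add {n : ℕ} {z w : Pic0 L (FF L N)} {χ ψ : Gamma0 N →* ℂˣ}
    (h : IsCharP ι N n z χ) (h' : IsCharP ι N n w ψ) : IsCharP ι N n (z + w) (χ * ψ) := by
  obtain ⟨D, rfl, hχ⟩ := h
  obtain ⟨E, rfl, hψ⟩ := h'
  exact ⟨D + E, rfl, hχ.add hψ⟩

theorem IsCharP.eq_zero {n : ℕ} (hn : n ≠ 0) {z : Pic0 L (FF L N)}
    (h : IsCharP ι N n z 1) : z = 0 := by
  obtain ⟨D, rfl, hχ⟩ := h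
  rw [pic0_mk_eq_zero_iff]
  exact hχ.principal hn

theorem isCharP_zero {n : ℕ} : IsCharP ι N n (0 : Pic0 L (FF L N)) 1 :=
  ⟨0, rfl, isChar_of_principal ⟨1, one_ne_zero, fun v => by simp⟩⟩

theorem IsCharP.smul {n k : ℕ} {z : Pic0 L (FF L N)} {χ : Gamma0 N →* ℂˣ}
    (h : IsCharP ι N (n * k) z χ) : IsCharP ι N n (k • z) (χ ^ k) := by
  obtain ⟨D, rfl, hχ⟩ := h
  exact ⟨k • D, rfl, hχ.smul⟩

theorem IsCharP.pow_eq_one {n : ℕ} (hn : n ≠ 0) {z : Pic0 L (FF L N)} {χ : Gamma0 N →* ℂˣ}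
    (h : IsCharP ι N n z χ) (γ : Gamma0 N) : χ γ ^ n = 1 := by
  obtain ⟨D, rfl, hχ⟩ := h
  exact hχ.pow_eq_one hn γ

theorem IsCharP.elliptic {n : ℕ} (hn : n ≠ 0) {z : Pic0 L (FF L N)} {χ : Gamma0 N →* ℂˣ}
    (h : IsCharP ι N n z χ) (γ : Gamma0 N) {τ : ℍ} (hγ : (γ : SL(2, ℤ)) • τ = τ) : χ γ = 1 := by
  obtain ⟨D, rfl, hχ⟩ := h
  exact hχ.elliptic hn γ hγ

theorem IsCharP.parabolic {n : ℕ} (hn : n ≠ 0) {z : Pic0 L (FF L N)} {χ : Gamma0 N →* ℂˣ}
    (h : IsCharP ι N n z χ) (γ : Gamma0 N)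
    (hγ : ((γ : SL(2, ℤ)) : Matrix (Fin 2) (Fin 2) ℤ).trace ^ 2 = 4) : χ γ = 1 := by
  obtain ⟨D, rfl, hχ⟩ := h
  exact hχ.parabolic hn γ hγ

/-! ### roots of unity -/

/-- `a ↦ exp(2πi a/n)` -/
def muHom (n : ℕ) : ZMod n →+ Additive ℂˣ :=
  ZMod.lift n ⟨zmultiplesHom (Additive ℂˣ) (Additive.ofMul (zetaN n)), by
    rcases Nat.eq_zero_or_pos n with rfl | hn
    · simp
    · have : NeZero n := ⟨hn.ne'⟩
      have h1 : zetaN n ^ n = 1 := by
        have h2 := pow_orderOf_eq_one (zetaN n)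
        rwa [orderOf_zetaN] at h2
      simp only [zmultiplesHom_apply, natCast_zsmul]
      rw [← ofMul_pow, h1, ofMul_one]⟩

theorem muHom_intCast (n : ℕ) (a : ℤ) : muHom n (a : ZMod n) = Additive.ofMul (zetaN n ^ a) := by
  rw [muHom, ZMod.lift_coe]
  simp only [zmultiplesHom_apply, ofMul_zpow]

theorem muHom_injective (n : ℕ) [NeZero n] : Injective (muHom n) := by
  rw [injective_iff_map_eq_zero]
  intro a ha
  obtain ⟨a, rfl⟩ := ZMod.intCast_surjective a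
  rw [muHom_intCast, ofMul_eq_zero, ← orderOf_dvd_iff_zpow_eq_one, orderOf_zetaN] at ha
  rwa [ZMod.intCast_zmod_eq_zero_iff_dvd]

theorem exists_muHom_eq (n : ℕ) [NeZero n] {c : ℂˣ} (hc : c ^ n = 1) :
    ∃ a, muHom n a = Additive.ofMul c := by
  have h := Complex.isPrimitiveRoot_exp n (NeZero.ne n)
  have h1 : IsPrimitiveRoot (zetaN n) n := by
    rw [← IsPrimitiveRoot.coe_units_iff]
    exact h
  obtain ⟨i, -, hi⟩ := (h1.map_of_injective (f := Units.coeHom ℂ) Units.val_injective)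
    |>.eq_pow_of_pow_eq_one (ξ := (c : ℂ)) (by rw [← Units.val_pow_eq_pow_val, hc, Units.val_one])
  refine ⟨(i : ℤ), ?_⟩
  rw [muHom_intCast, zpow_natCast]
  congr 1
  apply Units.ext
  rw [Units.val_pow_eq_pow_val]
  exact hi

/-- `ζ_n^a = (ζ_{nk}^a)^k` -/
theorem muHom_cast (n k : ℕ) [NeZero n] [NeZero k] (a : ZMod (n * k)) :
    muHom n (ZMod.castHom (dvd_mul_right n k) (ZMod n) a) = k • muHom (n * k) a := by
  obtain ⟨a, rfl⟩ := ZMod.intCast_surjective a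
  rw [map_intCast, muHom_intCast, muHom_intCast, ← ofMul_pow]
  congr 1
  rw [← zpow_natCast, ← zpow_mul, mul_comm a, zpow_mul, zpow_natCast, zetaN_mul_pow]

/-- lifting characters to `ℤ/n` -/
theorem exists_lift {Γ : Type*} [Group Γ] (n : ℕ) [NeZero n] (χ : Γ →* ℂˣ)
    (hχ : ∀ γ, χ γ ^ n = 1) : ∃ φ : Additive Γ →+ ZMod n,
      (muHom n).comp φ = MonoidHom.toAdditive χ := by
  choose f hf using fun γ : Γ => exists_muHom_eq n (hχ γ)
  refine ⟨⟨⟨fun γ => f (Additive.toMul γ), ?_⟩, ?_⟩, ?_⟩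
  · apply muHom_injective n
    show muHom n (f (1 : Γ)) = muHom n 0
    rw [hf, map_zero, map_one, ofMul_one]
  · intro γ δ
    apply muHom_injective n
    show muHom n (f (Additive.toMul γ * Additive.toMul δ)) =
      muHom n (f (Additive.toMul γ) + f (Additive.toMul δ))
    rw [hf, map_add, hf, hf, map_mul, ofMul_mul]
  · ext γ
    exact congrArg _ (hf (Additive.toMul γ))

theorem comp_muHom_injective {Γ : Type*} [Group Γ] (n : ℕ) [NeZero n]
    {φ ψ : Additive Γ →+ ZMod n} (h : (muHom n).comp φ = (muHom n).comp ψ) : φ = ψ := by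
  refine AddMonoidHom.ext fun γ => muHom_injective n ?_
  exact DFunLike.congr_fun h γ

variable (ι N)

/-- `φ` is the `ℤ/n`-valued character of `z` -/
def IsCmp (n : ℕ) (z : Pic0 L (FF L N)) (φ : Additive (Gamma0 N) →+ ZMod n) : Prop :=
  ∃ χ : Gamma0 N →* ℂˣ, IsCharP ι N n z χ ∧ (muHom n).comp φ = MonoidHom.toAdditive χ

variable {ι N}

theorem exists_isCmp {n : ℕ} [NeZero n] {z : Pic0 L (FF L N)} (hz : n • z = 0) :
    ∃ φ, IsCmp ι N n z φ := by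
  obtain ⟨χ, hχ⟩ := exists_isCharP (ι := ι) (NeZero.ne n) hz
  obtain ⟨φ, hφ⟩ := exists_lift n χ (hχ.pow_eq_one (NeZero.ne n))
  exact ⟨φ, χ, hχ, hφ⟩

theorem IsCmp.unique {n : ℕ} [NeZero n] {z : Pic0 L (FF L N)} {φ ψ : Additive (Gamma0 N) →+ ZMod n}
    (h : IsCmp ι N n z φ) (h' : IsCmp ι N n z ψ) : φ = ψ := by
  obtain ⟨χ, hχ, hφ⟩ := h
  obtain ⟨χ', hχ', hψ⟩ := h'
  apply comp_muHom_injective n
  rw [hφ, hψ, hχ.unique (NeZero.ne n) hχ']

theorem IsCmp.add {n : ℕ} {z w : Pic0 L (FF L N)} {φ ψ : Additive (Gamma0 N) →+ ZMod n}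
    (h : IsCmp ι N n z φ) (h' : IsCmp ι N n w ψ) : IsCmp ι N n (z + w) (φ + ψ) := by
  obtain ⟨χ, hχ, hφ⟩ := h
  obtain ⟨χ', hχ', hψ⟩ := h'
  refine ⟨χ * χ', hχ.add hχ', ?_⟩
  rw [AddMonoidHom.comp_add, hφ, hψ]
  rfl

theorem IsCmp.eq_zero {n : ℕ} [NeZero n] {z : Pic0 L (FF L N)} (h : IsCmp ι N n z 0) : z = 0 := by
  obtain ⟨χ, hχ, hφ⟩ := h
  have h1 : χ = 1 := by
    ext γ
    have h2 := DFunLike.congr_fun hφ (Additive.ofMul γ)
    have h3 : (0 : Additive ℂˣ) = Additive.ofMul (χ γ) := by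
      rw [AddMonoidHom.comp_zero] at h2
      exact h2
    rw [eq_comm, ofMul_eq_zero] at h3
    rw [h3]
    rfl
  rw [h1] at hχ
  exact hχ.eq_zero (NeZero.ne n)

theorem isCmp_zero {n : ℕ} : IsCmp ι N n (0 : Pic0 L (FF L N)) 0 :=
  ⟨1, isCharP_zero, by rw [AddMonoidHom.comp_zero]; rfl⟩

/-- compatibility with multiplication by `k` -/
theorem IsCmp.smul {n k : ℕ} [NeZero n] [NeZero k] {z : Pic0 L (FF L N)}
    {φ : Additive (Gamma0 N) →+ ZMod (n * k)} (h : IsCmp ι N (n * k) z φ) :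
    IsCmp ι N n (k • z)
      ((ZMod.castHom (dvd_mul_right n k) (ZMod n) : ZMod (n * k) →+ ZMod n).comp φ) := by
  obtain ⟨χ, hχ, hφ⟩ := h
  refine ⟨χ ^ k, hχ.smul, ?_⟩
  refine AddMonoidHom.ext fun γ => ?_
  have h1 := DFunLike.congr_fun hφ γ
  have h2 : muHom (n * k) (φ γ) = MonoidHom.toAdditive χ γ := h1
  show muHom n (ZMod.castHom (dvd_mul_right n k) (ZMod n) (φ γ)) = _
  rw [muHom_cast, h2]
  rfl

/-- the comparison homomorphism kills parabolic elements -/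
theorem IsCmp.parabolic {n : ℕ} [NeZero n] {z : Pic0 L (FF L N)}
    {φ : Additive (Gamma0 N) →+ ZMod n} (h : IsCmp ι N n z φ) :
    Period.IsParabolicHom (Gamma0 N) φ := by
  intro γ hγ
  obtain ⟨χ, hχ, hφ⟩ := h
  apply muHom_injective n
  rw [map_zero]
  have h1 : muHom n (φ (Additive.ofMul γ)) = Additive.ofMul (χ γ) :=
    DFunLike.congr_fun hφ (Additive.ofMul γ)
  rw [h1, hχ.parabolic (NeZero.ne n) γ hγ, ofMul_one]

/-- the comparison homomorphism kills elliptic elements -/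
theorem IsCmp.elliptic {n : ℕ} [NeZero n] {z : Pic0 L (FF L N)}
    {φ : Additive (Gamma0 N) →+ ZMod n} (h : IsCmp ι N n z φ) (γ : Gamma0 N) {τ : ℍ}
    (hγ : (γ : SL(2, ℤ)) • τ = τ) : φ (Additive.ofMul γ) = 0 := by
  obtain ⟨χ, hχ, hφ⟩ := h
  apply muHom_injective n
  rw [map_zero]
  have h1 : muHom n (φ (Additive.ofMul γ)) = Additive.ofMul (χ γ) :=
    DFunLike.congr_fun hφ (Additive.ofMul γ)
  rw [h1, hχ.elliptic (NeZero.ne n) γ hγ, ofMul_one]

theorem exists_isCmp_of_mem {n : ℕ} [NeZero n]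
    (z : (Submodule.torsionBy ℤ (Pic0 L (FF L N)) (n : ℤ)).toAddSubgroup) :
    ∃ φ, IsCmp ι N n z φ :=
  exists_isCmp (by rw [← natCast_zsmul]; exact (Submodule.mem_torsionBy_iff _ _).1 z.2)

variable (ι N) in
/-- the underlying function of `cmpMap` -/
def cmpFun (n : ℕ) [NeZero n]
    (z : (Submodule.torsionBy ℤ (Pic0 L (FF L N)) (n : ℤ)).toAddSubgroup) :
    Additive (Gamma0 N) →+ ZMod n := (exists_isCmp_of_mem (ι := ι) z).choose

theorem isCmp_cmpFun (n : ℕ) [NeZero n]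
    (z : (Submodule.torsionBy ℤ (Pic0 L (FF L N)) (n : ℤ)).toAddSubgroup) :
    IsCmp ι N n z (cmpFun ι N n z) := (exists_isCmp_of_mem (ι := ι) z).choose_spec

variable (ι N) in
/-- The comparison map `J₀(N)[n] → Hom(Γ₀(N), ℤ/n)`. -/
def cmpMap (n : ℕ) [NeZero n] :
    (Submodule.torsionBy ℤ (Pic0 L (FF L N)) (n : ℤ)).toAddSubgroup →+
      (Additive (Gamma0 N) →+ ZMod n) where
  toFun z := cmpFun ι N n z
  map_zero' := (isCmp_cmpFun n _).unique isCmp_zero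
  map_add' z w := (isCmp_cmpFun n _).unique ((isCmp_cmpFun n z).add (isCmp_cmpFun n w))

theorem isCmp_cmpMap (n : ℕ) [NeZero n]
    (z : (Submodule.torsionBy ℤ (Pic0 L (FF L N)) (n : ℤ)).toAddSubgroup) :
    IsCmp ι N n z (cmpMap ι N n z) := isCmp_cmpFun n z

theorem cmpMap_injective (n : ℕ) [NeZero n] : Injective (cmpMap (L := L) ι N n) := by
  rw [injective_iff_map_eq_zero]
  intro z hz
  have h1 := isCmp_cmpMap (ι := ι) n z
  rw [hz] at h1
  exact Subtype.ext h1.eq_zero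

variable (ι N) in
/-- the comparison maps for the powers of a prime -/
def comparison (p : ℕ) [hp : Fact p.Prime] :
    Fermat.Agent.Tate.Comparison p (Pic0 L (FF L N)) (Gamma0 N) :=
  haveI : ∀ n : ℕ, NeZero (p ^ n) := fun n => ⟨pow_ne_zero n hp.out.ne_zero⟩
  { e := fun n => cmpMap ι N (p ^ n)
    injective := fun n => cmpMap_injective (p ^ n)
    compat := fun n x => by
      have : NeZero p := ⟨hp.out.ne_zero⟩
      have h1 := isCmp_cmpMap (ι := ι) (p ^ (n + 1)) x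
      have h2 := isCmp_cmpMap (ι := ι) (p ^ n) (Fermat.Agent.Tate.mulP p n x)
      exact h2.unique (IsCmp.smul (n := p ^ n) (k := p) h1) }

end Fermat.Agent.TorsCmp
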