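import Fermat.Agent.TorsCmp.Inject
import Fermat.Agent.HeckeRed.FF
import Fermat.Agent.TorsInj.S18Core

/-!
# The character of a torsion divisor
-/

set_option autoImplicit false
set_option linter.unusedSectionVars false

noncomputable section

open UpperHalfPlane Function ModularCurve Filter ModularForm AlgebraicCurve WithZero
  CongruenceSubgroup
open scoped Manifold MatrixGroups Topology ModularForm

namespace Fermat.Agent.TorsCmp

open Fermat.Agent.X0Places Fermat.Agent.FunField Fermat.Agent.FunField.PlaceLemmas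
open Fermat.Agent.TorsInj (pic0_mk_eq_zero_iff)

variable {L : Type*} [Field L] [Algebra ℚ L] [IsAlgClosed L] (ι : L →+* ℂ) (N : ℕ) [NeZero N]

/-- `χ` is the character attached to the divisor `D` of a class killed by `n`: `n D = div x`,
`G` is a meromorphic `n`-th root of `x` and `G ∘ γ = χ(γ) G`. -/
def IsChar (n : ℕ) (D : Divisor L (FF L N)) (χ : Gamma0 N →* ℂˣ) : Prop :=
  ∃ (x : FF L N) (G : Mer), x ≠ 0 ∧ (∀ v, n * D v = v.ord x) ∧ G ^ n = toMer ι N x ∧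
    ∀ γ : Gamma0 N, compMer (γ : SL(2, ℤ)) G = cM (χ γ) * G

variable {ι N}

theorem root_ne_zero {n : ℕ} (hn : n ≠ 0) {x : FF L N} (hx : x ≠ 0) {G : Mer}
    (hG : G ^ n = toMer ι N x) : G ≠ 0 := by
  rintro rfl
  rw [zero_pow hn] at hG
  have : toMer ι N x ≠ 0 := by rwa [map_ne_zero]
  exact this hG.symm

theorem eq_of_cM_mul_eq {G : Mer} (hG : G ≠ 0) {a b : ℂˣ} (h : cM a * G = cM b * G) : a = b :=
  Units.ext (cM.injective (mul_right_cancel₀ hG h))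

theorem toMer_invariant (x : FF L N) (γ : Gamma0 N) :
    compMer (γ : SL(2, ℤ)) (toMer ι N x) = toMer ι N x :=
  RingHom.congr_fun (compMer_toMer ι N γ.2) x

theorem IsChar.pow_eq_one {n : ℕ} (hn : n ≠ 0) {D : Divisor L (FF L N)} {χ : Gamma0 N →* ℂˣ}
    (h : IsChar ι N n D χ) (γ : Gamma0 N) : χ γ ^ n = 1 := by
  obtain ⟨x, G, hx, hD, hG, hχ⟩ := h
  have hG0 := root_ne_zero hn hx hG
  have h1 := congrArg (· ^ n) (hχ γ)
  simp only [mul_pow, ← map_pow] at h1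
  rw [hG, toMer_invariant] at h1
  have h2 : toMer ι N x ≠ 0 := by rwa [map_ne_zero]
  have h3 : cM ((1 : ℂˣ) : ℂ) * toMer ι N x = cM ((χ γ ^ n : ℂˣ) : ℂ) * toMer ι N x := by
    rw [Units.val_one, map_one, one_mul, Units.val_pow_eq_pow_val]
    exact h1
  exact (eq_of_cM_mul_eq h2 h3).symm

/-- existence of the character -/
theorem exists_isChar {n : ℕ} (hn : n ≠ 0) {D : Divisor L (FF L N)}
    (hD : Divisor.IsPrincipal (n • D)) : ∃ χ, IsChar ι N n D χ := by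
  obtain ⟨x, hx, hDx⟩ := hD
  have hDx' : ∀ v, (n : ℤ) * D v = v.ord x := fun v => by
    rw [← hDx v, Finsupp.smul_apply, nsmul_eq_mul]
  obtain ⟨G, hG⟩ := exists_root_mer ι N hn hx (fun v => ⟨D v, (hDx' v).symm⟩)
  obtain ⟨χ, -, hχ⟩ := exists_char (Gamma0 N) hn (root_ne_zero hn hx hG) (fun γ hγ => by
    rw [hG]
    exact toMer_invariant x ⟨γ, hγ⟩)
  exact ⟨χ, x, G, hx, hDx', hG, hχ⟩

theorem IsChar.add {n : ℕ} {D E : Divisor L (FF L N)} {χ ψ : Gamma0 N →* ℂˣ}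
    (h : IsChar ι N n D χ) (h' : IsChar ι N n E ψ) : IsChar ι N n (D + E) (χ * ψ) := by
  obtain ⟨x, G, hx, hD, hG, hχ⟩ := h
  obtain ⟨y, H, hy, hE, hH, hψ⟩ := h'
  refine ⟨x * y, G * H, mul_ne_zero hx hy, fun v => ?_, ?_, fun γ => ?_⟩
  · rw [v.ord_mul hx hy, ← hD, ← hE, Finsupp.add_apply]
    ring
  · rw [mul_pow, hG, hH, map_mul]
  · rw [map_mul, hχ, hψ, MonoidHom.mul_apply, Units.val_mul, map_mul]
    ring

theorem IsChar.neg {n : ℕ} {D : Divisor L (FF L N)} {χ : Gamma0 N →* ℂˣ}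
    (h : IsChar ι N n D χ) : IsChar ι N n (-D) χ⁻¹ := by
  obtain ⟨x, G, hx, hD, hG, hχ⟩ := h
  refine ⟨x⁻¹, G⁻¹, inv_ne_zero hx, fun v => ?_, ?_, fun γ => ?_⟩
  · rw [v.ord_inv, ← hD, Finsupp.neg_apply]
    ring
  · rw [inv_pow, hG, map_inv₀]
  · rw [map_inv₀, hχ, mul_inv, MonoidHom.inv_apply, Units.val_inv_eq_inv_val, map_inv₀]

theorem isChar_of_principal {n : ℕ} {D : Divisor L (FF L N)} (hD : Divisor.IsPrincipal D) :
    IsChar ι N n D 1 := by
  obtain ⟨x, hx, hDx⟩ := hD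
  refine ⟨x ^ n, toMer ι N x, pow_ne_zero _ hx, fun v => ?_, by rw [map_pow], fun γ => ?_⟩
  · rw [ord_pow, hDx]
  · rw [toMer_invariant, MonoidHom.one_apply, Units.val_one, map_one, one_mul]

theorem IsChar.eq_one_of_principal {n : ℕ} (hn : n ≠ 0) {D : Divisor L (FF L N)}
    {χ : Gamma0 N →* ℂˣ} (h : IsChar ι N n D χ) (hD : Divisor.IsPrincipal D) : χ = 1 := by
  obtain ⟨x, G, hx, hDx, hG, hχ⟩ := h
  obtain ⟨y, hy, hDy⟩ := hD
  have hy' : toMer ι N y ≠ 0 := by rwa [map_ne_zero]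
  have hG0 := root_ne_zero hn hx hG
  -- `x / y ^ n` is a constant
  obtain ⟨c, hc⟩ : ∃ c : L, algebraMap L (FF L N) c = x / y ^ n := by
    apply exists_eq_algebraMap_of_forall_ord_nonneg
    intro v
    rw [ord_div v hx (pow_ne_zero _ hy), ord_pow, ← hDx, hDy, sub_self]
  have h1 : (G / toMer ι N y) ^ n = cM (ι c) := by
    rw [div_pow, hG, ← map_pow, ← map_div₀, ← hc, toMer_algebraMap]
    rfl
  obtain ⟨d, hd⟩ := IsAlgClosed.exists_pow_nat_eq (ι c) (Nat.pos_of_ne_zero hn)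
  have hc0 : ι c ≠ 0 := by
    rw [map_ne_zero]
    rintro rfl
    rw [map_zero] at hc
    exact div_ne_zero hx (pow_ne_zero _ hy) hc.symm
  have hd0 : d ≠ 0 := by
    rintro rfl
    rw [zero_pow hn] at hd
    exact hc0 hd.symm
  have hd1 : cM d ≠ 0 := by rwa [map_ne_zero]
  have h2 : (G / toMer ι N y / cM d) ^ n = 1 := by
    rw [div_pow, h1, ← map_pow, hd, div_self (by rwa [map_ne_zero])]
  obtain ⟨z, -, hz⟩ := exists_cM_of_pow_eq_one hn h2
  have h3 : G = cM z * cM d * toMer ι N y := by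
    rw [← hz]
    field_simp
  ext γ
  have h4 := hχ γ
  rw [h3, map_mul, map_mul, compMer_cM, compMer_cM, toMer_invariant, ← h3] at h4
  have h5 : cM ((1 : ℂˣ) : ℂ) * G = cM (χ γ) * G := by
    rw [Units.val_one, map_one, one_mul]
    exact h4
  rw [← eq_of_cM_mul_eq hG0 h5]
  rfl

/-- uniqueness of the character -/
theorem IsChar.unique {n : ℕ} (hn : n ≠ 0) {D E : Divisor L (FF L N)}
    {χ ψ : Gamma0 N →* ℂˣ} (h : IsChar ι N n D χ) (h' : IsChar ι N n E ψ)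
    (hDE : Divisor.IsPrincipal (D - E)) : χ = ψ := by
  have h1 := h.add h'.neg
  rw [← sub_eq_add_neg] at h1
  have h2 := h1.eq_one_of_principal hn hDE
  ext γ
  have h3 := DFunLike.congr_fun h2 γ
  rw [MonoidHom.mul_apply, MonoidHom.inv_apply, MonoidHom.one_apply, mul_inv_eq_one] at h3
  rw [h3]

/-- injectivity -/
theorem IsChar.principal {n : ℕ} (hn : n ≠ 0) {D : Divisor L (FF L N)}
    (h : IsChar ι N n D 1) : Divisor.IsPrincipal D := by
  obtain ⟨x, G, hx, hD, hG, hχ⟩ := h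
  obtain ⟨y, hy, -⟩ := exists_of_invariant ι N hn hx (fun v => ⟨D v, (hD v).symm⟩) hG
    (fun γ hγ => by
      have h1 := hχ ⟨γ, hγ⟩
      rw [MonoidHom.one_apply, Units.val_one, map_one, one_mul] at h1
      exact h1)
  refine ⟨y, ?_, fun v => ?_⟩
  · rintro rfl
    rw [zero_pow hn] at hy
    exact hx hy.symm
  · have h1 := hD v
    rw [← hy, ord_pow] at h1
    exact mul_left_cancel₀ (by exact_mod_cast hn) h1

theorem IsChar.elliptic {n : ℕ} (hn : n ≠ 0) {D : Divisor L (FF L N)}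
    {χ : Gamma0 N →* ℂˣ} (h : IsChar ι N n D χ) (γ : Gamma0 N) {τ : ℍ}
    (hγ : (γ : SL(2, ℤ)) • τ = τ) : χ γ = 1 := by
  obtain ⟨x, G, hx, hD, hG, hχ⟩ := h
  exact char_elliptic ι N hn hx (fun v => ⟨D v, (hD v).symm⟩) hG γ.2 hγ (hχ γ)

theorem IsChar.parabolic {n : ℕ} (hn : n ≠ 0) {D : Divisor L (FF L N)}
    {χ : Gamma0 N →* ℂˣ} (h : IsChar ι N n D χ) (γ : Gamma0 N)
    (hγ : ((γ : SL(2, ℤ)) : Matrix (Fin 2) (Fin 2) ℤ).trace ^ 2 = 4) : χ γ = 1 := by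
  have hpow := h.pow_eq_one hn
  obtain ⟨x, G, hx, hD, hG, hχ⟩ := h
  exact char_parabolic ι N hn hx (fun v => ⟨D v, (hD v).symm⟩) hG hpow hχ γ hγ

theorem IsChar.smul {n k : ℕ} {D : Divisor L (FF L N)} {χ : Gamma0 N →* ℂˣ}
    (h : IsChar ι N (n * k) D χ) : IsChar ι N n (k • D) (χ ^ k) := by
  obtain ⟨x, G, hx, hD, hG, hχ⟩ := h
  refine ⟨x, G ^ k, hx, fun v => ?_, ?_, fun γ => ?_⟩
  · rw [← hD, Finsupp.smul_apply, nsmul_eq_mul]
    push_cast
    ring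
  · rw [← pow_mul, mul_comm, hG]
  · rw [map_pow, hχ, MonoidHom.pow_apply, Units.val_pow_eq_pow_val, map_pow, mul_pow]

end Fermat.Agent.TorsCmp
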