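import Fermat.Agent.X0Places.Holo
import Mathlib.Analysis.Meromorphic.FactorizedRational
import Mathlib.Analysis.Complex.HasPrimitives
import Mathlib.Analysis.Complex.Polynomial.Basic

/-!
# Roots of holomorphic functions on the upper half plane
-/

set_option autoImplicit false

noncomputable section

open UpperHalfPlane Function Filter Metric Set
open scoped Manifold MatrixGroups Topology

namespace Fermat.Agent.TorsCmp

open Fermat.Agent.X0Places

/-- a nowhere vanishing holomorphic function on a disc has a holomorphic `n`-th root -/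
theorem exists_root_ball_of_ne_zero {f : ℂ → ℂ} {c : ℂ} {R : ℝ}
    (hf : DifferentiableOn ℂ f (ball c R)) (h0 : ∀ z ∈ ball c R, f z ≠ 0) {n : ℕ} (hn : n ≠ 0) :
    ∃ g : ℂ → ℂ, DifferentiableOn ℂ g (ball c R) ∧ ∀ z ∈ ball c R, g z ^ n = f z := by
  by_cases hR : 0 < R
  swap
  · have : ball c R = ∅ := ball_eq_empty.2 (not_lt.1 hR)
    rw [this]
    exact ⟨0, differentiableOn_empty, fun z hz => absurd hz (Set.notMem_empty z)⟩
  have hd : DifferentiableOn ℂ (deriv f) (ball c R) := hf.deriv isOpen_ball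
  obtain ⟨F, hF⟩ := (hd.div hf h0).isExactOn_ball
  have hcc : c ∈ ball c R := mem_ball_self hR
  have hFd : DifferentiableOn ℂ F (ball c R) := fun z hz =>
    (hF z hz).differentiableAt.differentiableWithinAt
  -- `f exp (-F)` is constant
  have hconst : ∀ z ∈ ball c R, f z * Complex.exp (-(F z)) = f c * Complex.exp (-(F c)) := by
    intro z hz
    refine (convex_ball c R).is_const_of_fderivWithin_eq_zero (𝕜 := ℂ) (f := fun z => f z *
      Complex.exp (-(F z))) ?_ ?_ hz hcc
    · exact hf.mul (hFd.neg.cexp)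
    · intro w hw
      have hfw : HasDerivAt f (deriv f w) w :=
        ((hf w hw).differentiableAt (isOpen_ball.mem_nhds hw)).hasDerivAt
      have h1 : HasDerivAt (fun z => f z * Complex.exp (-(F z))) 0 w := by
        have h2 := hfw.mul ((hF w hw).neg.cexp)
        have h3 := h0 w hw
        have h4 : deriv f w * Complex.exp ((-F) w) +
            f w * (Complex.exp ((-F) w) * -(deriv f / f) w) = 0 := by
          have h4 : (deriv f / f) w = deriv f w / f w := rfl
          rw [h4]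
          field_simp
          ring
        rw [h4] at h2
        exact h2
      rw [fderivWithin_of_isOpen isOpen_ball hw]
      exact ContinuousLinearMap.ext_ring (by
        rw [h1.hasFDerivAt.fderiv]
        simp)
  obtain ⟨a, ha⟩ : ∃ a : ℂ, a ^ n = f c * Complex.exp (-(F c)) :=
    IsAlgClosed.exists_pow_nat_eq _ (Nat.pos_of_ne_zero hn)
  refine ⟨fun z => a * Complex.exp (F z / n), ?_, ?_⟩
  · exact (hFd.div_const _).cexp.const_mul a
  · intro z hz
    have h1 := hconst z hz
    rw [mul_pow, ha, ← Complex.exp_nat_mul, mul_div_cancel₀ _ (by exact_mod_cast hn), ← h1,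
      mul_assoc, ← Complex.exp_add, neg_add_cancel, Complex.exp_zero, mul_one]

/-- a holomorphic function on a closed disc with all orders divisible by `n` has a holomorphic
`n`-th root on the disc. -/
theorem exists_root_ball {f : ℂ → ℂ} {c : ℂ} {R : ℝ} (hf : AnalyticOnNhd ℂ f (closedBall c R))
    (h0 : ∀ z ∈ closedBall c R, analyticOrderAt f z ≠ ⊤) {n : ℕ} (hn : n ≠ 0)
    (hdvd : ∀ z ∈ closedBall c R, n ∣ (analyticOrderAt f z).toNat) :
    ∃ g : ℂ → ℂ, DifferentiableOn ℂ g (ball c R) ∧ ∀ z ∈ ball c R, g z ^ n = f z := by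
  classical
  set U := closedBall c R with hU
  set D := MeromorphicOn.divisor f U with hD
  have hfin : D.support.Finite := D.finiteSupport (isCompact_closedBall c R)
  obtain ⟨g₀, hg₀, hg₀', hfg⟩ := MeromorphicOn.extract_zeros_poles hf.meromorphicOn
    (fun u => by
      rw [(hf u u.2).meromorphicOrderAt_eq]
      intro h
      exact h0 u u.2 (ENat.map_eq_top_iff.1 h)) hfin
  have hDm : ∀ u, ∃ m : ℕ, D u = (n : ℤ) * m := by
    intro u
    by_cases hu : u ∈ U
    · obtain ⟨m, hm⟩ := hdvd u hu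
      refine ⟨m, ?_⟩
      obtain ⟨k, hk⟩ := ENat.ne_top_iff_exists.1 (h0 u hu)
      rw [hD, MeromorphicOn.AnalyticOnNhd.divisor_apply hf hu]
      rw [← hk] at hm ⊢
      have h1 : k = n * m := hm
      have h2 : (ENat.map (Nat.cast : ℕ → ℤ) (k : ℕ∞)).untop₀ = (k : ℤ) := rfl
      rw [h2, h1]
      push_cast
      rfl
    · refine ⟨0, ?_⟩
      rw [D.apply_eq_zero_of_notMem hu]
      simp
  choose m hm using hDm
  have hsub : ball c R ⊆ U := ball_subset_closedBall
  obtain ⟨h, hh, hh'⟩ := exists_root_ball_of_ne_zero (f := g₀) (c := c) (R := R)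
    (fun z hz => (hg₀ z (hsub hz)).differentiableAt.differentiableWithinAt)
    (fun z hz => hg₀' ⟨z, hsub hz⟩) hn
  set S : Finset ℂ := hfin.toFinset
  set P : ℂ → ℂ := fun z => ∏ u ∈ S, (z - u) ^ m u with hP
  have hPd : Differentiable ℂ P := by
    rw [hP]
    fun_prop
  have hprod : ∀ z, (∏ᶠ u, (· - u) ^ D u : ℂ → ℂ) z = P z ^ n := by
    intro z
    rw [finprod_eq_prod_of_mulSupport_subset (s := S)]
    · rw [Finset.prod_apply, hP, ← Finset.prod_pow]
      refine Finset.prod_congr rfl fun u _ => ?_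
      rw [Pi.pow_apply, hm u, zpow_mul, zpow_natCast, zpow_natCast, ← pow_mul, ← pow_mul, mul_comm]
    · intro u hu
      rw [Set.Finite.coe_toFinset, Function.mem_support]
      intro h
      apply hu
      show (fun z : ℂ => z - u) ^ D u = 1
      rw [h, zpow_zero]
  refine ⟨fun z => P z * h z, hPd.differentiableOn.mul hh, fun z hz => ?_⟩
  -- equality off a discrete set
  have h1 : ∀ᶠ w in 𝓝[≠] z, f w = P w ^ n * g₀ w := by
    have h2 := hfg
    rw [Filter.EventuallyEq, Filter.Eventually, mem_codiscreteWithin] at h2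
    have h3 := h2 z (hsub hz)
    rw [Filter.disjoint_principal_right] at h3
    have h4 : ball c R ∈ 𝓝[≠] z := mem_nhdsWithin_of_mem_nhds (isOpen_ball.mem_nhds hz)
    filter_upwards [h3, h4] with w hw hw'
    have h5 : w ∈ {x | f x = ((∏ᶠ u, (· - u) ^ D u) • g₀) x} := by
      by_contra hcon
      exact hw ⟨hsub hw', hcon⟩
    have h6 : f w = ((∏ᶠ u, (· - u) ^ D u) • g₀) w := h5
    rw [h6, Pi.smul_apply', hprod, smul_eq_mul]
  have h2 : Tendsto f (𝓝[≠] z) (𝓝 (f z)) :=
    (hf z (hsub hz)).continuousAt.tendsto.mono_left nhdsWithin_le_nhds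
  have h3 : Tendsto (fun w => P w ^ n * g₀ w) (𝓝[≠] z) (𝓝 (P z ^ n * g₀ z)) :=
    (((hPd.continuous.continuousAt).pow n).mul
      (hg₀ z (hsub hz)).continuousAt).tendsto.mono_left nhdsWithin_le_nhds
  have h4 := tendsto_nhds_unique (h2.congr' h1) h3
  show (P z * h z) ^ n = f z
  rw [mul_pow, hh' z hz, h4]

/-- continuous functions with equal `n`-th powers which agree at a point where they do not vanish
agree near the point -/
theorem eventuallyEq_of_pow_eq {u v : ℂ → ℂ} {z : ℂ} (hu : ContinuousAt u z)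
    (hv : ContinuousAt v z) (huv : u z = v z) (h0 : v z ≠ 0) {n : ℕ} (hn : n ≠ 0)
    (h : ∀ᶠ w in 𝓝 z, u w ^ n = v w ^ n) : u =ᶠ[𝓝 z] v := by
  have h1 : ContinuousAt (fun w => u w / v w) z := hu.div hv h0
  set S : Finset ℂ := (Polynomial.nthRootsFinset n (1 : ℂ)).erase 1 with hS
  have h2 : ((S : Set ℂ)ᶜ) ∈ 𝓝 (u z / v z) := by
    apply (S.finite_toSet.isClosed.isOpen_compl).mem_nhds
    rw [huv, div_self h0]
    simp [hS]
  filter_upwards [h1.eventually h2, h, hv.eventually_ne h0] with w hw hw' hw0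
  by_contra hne
  apply hw
  have h3 : u w / v w ≠ 1 := fun h => hne ((div_eq_one_iff_eq hw0).1 h)
  rw [hS, Finset.mem_coe, Finset.mem_erase, Polynomial.mem_nthRootsFinset (Nat.pos_of_ne_zero hn)]
  refine ⟨h3, ?_⟩
  rw [div_pow, hw', div_self (pow_ne_zero _ hw0)]

/-- centre of the `k`-th disc -/
def cen (k : ℕ) : ℂ := ((k + 2 : ℝ) : ℂ) * Complex.I

/-- radius of the `k`-th disc -/
def rad (k : ℕ) : ℝ := (k + 2 : ℝ) - 1 / (k + 2 : ℝ)

theorem closedBall_subset (k : ℕ) {z : ℂ} (hz : z ∈ closedBall (cen k) (rad k)) : 0 < z.im := by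
  rw [mem_closedBall, Complex.dist_eq] at hz
  have h1 := (Complex.abs_im_le_norm _).trans hz
  have h2 : (z - cen k).im = z.im - (k + 2) := by simp [cen]
  rw [h2, rad] at h1
  have h3 := (abs_le.1 h1).1
  have h4 : (0 : ℝ) < 1 / (k + 2 : ℝ) := by positivity
  linarith

theorem ball_I_subset (k : ℕ) : ball Complex.I (1 / 2) ⊆ ball (cen k) (rad k) := by
  apply ball_subset_ball'
  have h1 : Complex.I - cen k = -(((k + 1 : ℝ) : ℂ) * Complex.I) := by
    rw [cen]; push_cast; ring
  rw [Complex.dist_eq, h1, norm_neg, norm_mul, Complex.norm_I, mul_one, Complex.norm_real,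
    Real.norm_of_nonneg (by positivity), rad]
  have h2 : 1 / ((k : ℝ) + 2) ≤ 1 / 2 := by
    apply one_div_le_one_div_of_le two_pos
    have : (0 : ℝ) ≤ k := Nat.cast_nonneg k
    linarith
  linarith

theorem exists_mem_ball {z : ℂ} (hz : 0 < z.im) : ∃ k, z ∈ ball (cen k) (rad k) := by
  obtain ⟨k, hk⟩ := exists_nat_gt ((z.re ^ 2 + z.im ^ 2 + 2) / (2 * z.im))
  refine ⟨k, ?_⟩
  rw [div_lt_iff₀ (by positivity)] at hk
  have h1 : ‖z - cen k‖ ^ 2 < rad k ^ 2 := by
    rw [← Complex.normSq_eq_norm_sq, Complex.normSq_apply]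
    have h2 : (z - cen k).im = z.im - (k + 2) := by simp [cen]
    have h3 : (z - cen k).re = z.re := by simp [cen]
    rw [h2, h3, rad]
    have h4 : (0 : ℝ) < k + 2 := by positivity
    have h5 : ((k : ℝ) + 2 - 1 / (k + 2)) ^ 2 = (k + 2) ^ 2 - 2 + 1 / (k + 2) ^ 2 := by
      field_simp
      ring
    rw [h5]
    have h6 : 0 < 1 / ((k : ℝ) + 2) ^ 2 := by positivity
    nlinarith
  rw [mem_ball, Complex.dist_eq]
  have h7 : 0 ≤ rad k := by
    rw [rad, sub_nonneg, div_le_iff₀ (by positivity)]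
    have : (0 : ℝ) ≤ k := Nat.cast_nonneg k
    nlinarith
  exact lt_of_pow_lt_pow_left₀ 2 h7 h1

/-- A holomorphic function on the upper half plane all of whose orders are divisible by `n` has a
holomorphic `n`-th root. -/
theorem exists_root {φ : ℍ → ℂ} (hφ : MDiff φ) (h0 : φ ≠ 0) {n : ℕ} (hn : n ≠ 0)
    (hdvd : ∀ τ, n ∣ (ordH τ φ).toNat) : ∃ G : ℍ → ℂ, MDiff G ∧ ∀ τ, G τ ^ n = φ τ := by
  classical
  set f : ℂ → ℂ := φ ∘ ofComplex with hf
  have han : ∀ z : ℂ, 0 < z.im → AnalyticAt ℂ f z := fun z hz => analyticAt_ofMDiff hφ ⟨z, hz⟩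
  have hord : ∀ z : ℂ, ∀ hz : 0 < z.im, analyticOrderAt f z = ordH ⟨z, hz⟩ φ := fun z hz => rfl
  -- roots on discs
  have hball : ∀ k : ℕ, ∃ g : ℂ → ℂ, DifferentiableOn ℂ g (ball (cen k) (rad k)) ∧
      ∀ z ∈ ball (cen k) (rad k), g z ^ n = f z := by
    intro k
    apply exists_root_ball
    · intro z hz
      exact han z (closedBall_subset k hz)
    · intro z hz
      rw [hord z (closedBall_subset k hz)]
      intro h
      exact h0 ((ordH_eq_top_iff hφ _).1 h)
    · exact hn
    · intro z hz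
      rw [hord z (closedBall_subset k hz)]
      exact hdvd _
  choose g hg hgn using hball
  -- the base point
  obtain ⟨z₀, hz₀, hfz₀⟩ : ∃ z₀ ∈ ball Complex.I (1 / 2 : ℝ), f z₀ ≠ 0 := by
    by_contra hcon
    push Not at hcon
    apply h0
    rw [← ordH_eq_top_iff hφ UpperHalfPlane.I]
    apply analyticOrderAt_eq_top.2
    filter_upwards [isOpen_ball.mem_nhds (mem_ball_self (x := Complex.I) (by norm_num : (0 : ℝ) <
      1 / 2))] with z hz
    exact hcon z hz
  obtain ⟨w, hw⟩ : ∃ w : ℂ, w ^ n = f z₀ := IsAlgClosed.exists_pow_nat_eq _ (Nat.pos_of_ne_zero hn)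
  have hw0 : w ≠ 0 := by
    rintro rfl
    rw [zero_pow hn] at hw
    exact hfz₀ hw.symm
  have hz₀k : ∀ k, z₀ ∈ ball (cen k) (rad k) := fun k => ball_I_subset k hz₀
  have hg0 : ∀ k, g k z₀ ≠ 0 := by
    intro k h
    have := hgn k z₀ (hz₀k k)
    rw [h, zero_pow hn] at this
    exact hfz₀ this.symm
  set G : ℕ → ℂ → ℂ := fun k z => w / g k z₀ * g k z with hG
  have hGd : ∀ k, DifferentiableOn ℂ (G k) (ball (cen k) (rad k)) := fun k => (hg k).const_mul _
  have hGn : ∀ k, ∀ z ∈ ball (cen k) (rad k), G k z ^ n = f z := by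
    intro k z hz
    simp only [hG]
    rw [mul_pow, div_pow, hw, hgn k _ (hz₀k k), div_self hfz₀, one_mul, hgn k z hz]
  have hGz : ∀ k, G k z₀ = w := by
    intro k
    simp only [hG]
    exact div_mul_cancel₀ _ (hg0 k)
  have hGan : ∀ k, AnalyticOnNhd ℂ (G k) (ball (cen k) (rad k)) := fun k =>
    (hGd k).analyticOnNhd isOpen_ball
  -- compatibility
  have hcomp : ∀ j k, ∀ z ∈ ball (cen j) (rad j) ∩ ball (cen k) (rad k), G j z = G k z := by
    intro j k
    have hpre : IsPreconnected (ball (cen j) (rad j) ∩ ball (cen k) (rad k)) :=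
      ((convex_ball _ _).inter (convex_ball _ _)).isPreconnected
    refine AnalyticOnNhd.eqOn_of_preconnected_of_eventuallyEq (z₀ := z₀)
      ((hGan j).mono Set.inter_subset_left) ((hGan k).mono Set.inter_subset_right) hpre
      ⟨hz₀k j, hz₀k k⟩ ?_
    apply eventuallyEq_of_pow_eq (hGan j z₀ (hz₀k j)).continuousAt
      (hGan k z₀ (hz₀k k)).continuousAt (by rw [hGz, hGz]) (by rw [hGz]; exact hw0) hn
    filter_upwards [isOpen_ball.mem_nhds (hz₀k j), isOpen_ball.mem_nhds (hz₀k k)] with z h1 h2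
    rw [hGn j z h1, hGn k z h2]
  have hex : ∀ τ : ℍ, ∃ k, (τ : ℂ) ∈ ball (cen k) (rad k) := fun τ => exists_mem_ball τ.im_pos
  choose k hk using hex
  refine ⟨fun τ => G (k τ) τ, ?_, fun τ => ?_⟩
  · rw [UpperHalfPlane.mdifferentiable_iff]
    intro z hz
    have hz' : 0 < z.im := hz
    obtain ⟨j, hj⟩ := exists_mem_ball hz'
    have h1 : DifferentiableAt ℂ (G j) z := (hGan j z hj).differentiableAt
    apply DifferentiableAt.differentiableWithinAt
    refine h1.congr_of_eventuallyEq ?_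
    filter_upwards [isOpen_ball.mem_nhds hj, isOpen_upperHalfPlaneSet.mem_nhds hz] with y hy hy'
    have h2 : ((⟨y, hy'⟩ : ℍ) : ℂ) = y := rfl
    have h3 := hk ⟨y, hy'⟩
    rw [comp_apply, ofComplex_apply_of_im_pos hy', h2]
    rw [h2] at h3
    exact hcomp _ _ y ⟨h3, hy⟩
  · show G (k τ) τ ^ n = φ τ
    rw [hGn _ _ (hk τ), hf, comp_apply, ofComplex_apply]

/-- version in the ring `Holo` -/
theorem exists_root_holo {φ : Holo} (h0 : φ ≠ 0) {n : ℕ} (hn : n ≠ 0)
    (hdvd : ∀ τ, n ∣ (ordH τ (φ : ℍ → ℂ)).toNat) : ∃ G : Holo, G ^ n = φ := by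
  obtain ⟨G, hG, hG'⟩ := exists_root φ.2 (fun h => h0 (Subtype.ext h)) hn hdvd
  refine ⟨⟨G, hG⟩, ?_⟩
  apply Subtype.ext
  funext τ
  exact hG' τ

end Fermat.Agent.TorsCmp
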